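import Fermat.Agent.GFunctions.Galochkin
import Fermat.Agent.GlobalNilpotence.Main
import Fermat.Agent.PrimeDivisors.Exceptional

/-!
# A convergent sum of reciprocals over the bad primes is enough for the theorem of Katz
-/

set_option autoImplicit false

noncomputable section

namespace FA.GFunctions

open Polynomial NumberField IsDedekindDomain
open Fermat.Agent.RootsModP FA.GlobalNilpotence

theorem connMat_eq_sysMat {R : Type*} [CommRing R] (a : ℕ → R[X]) (n : ℕ) :
    ∀ i, connMat a n i = sysMat (a n) (companion a n) i
  | 0 => rfl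
  | i + 1 => by rw [connMat, sysMat, connMat_eq_sysMat a n i]

theorem connMat_mod_eq (a : ℕ → ℤ[X]) (n p : ℕ) :
    connMat (fun j => (a j).map (Int.castRingHom (ZMod p))) n p =
      sysMat ((a n).map (Int.castRingHom (ZMod p)))
        ((companion a n).map (Polynomial.map (Int.castRingHom (ZMod p)))) p := by
  rw [← sysMat_map, ← connMat_eq_sysMat]
  exact (map_connMat (mapRingHom (Int.castRingHom (ZMod p))) (mapRingHom_derivative _) a p).symm

/-- A set of primes with divergent sum of reciprocals has large members outside a set with a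
convergent one. -/
theorem exists_large_of_not_summable {Q B : Set ℕ}
    (hQ : ¬Summable (Q.indicator fun n : ℕ => (1 : ℝ) / n))
    (hB : Summable (B.indicator fun n : ℕ => (1 : ℝ) / n)) (N : ℕ) :
    ∃ p, p ∈ Q ∧ p ∉ B ∧ N < p := by
  by_contra hall
  push Not at hall
  refine hQ ((hB.add (summable_of_ne_finset_zero (s := Finset.range (N + 1))
    (f := (↑(Finset.range (N + 1)) : Set ℕ).indicator fun n : ℕ => (1 : ℝ) / n)
    fun b hb => Set.indicator_of_notMem (by simpa using hb) _)).of_nonneg_of_le
    (fun p => Set.indicator_nonneg (fun _ _ => by positivity) p) fun p => ?_)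
  by_cases hp : p ∈ Q
  · rw [Set.indicator_of_mem hp]
    by_cases hpB : p ∈ B
    · rw [Set.indicator_of_mem hpB]
      exact le_add_of_nonneg_right (Set.indicator_nonneg (fun _ _ => by positivity) p)
    · rw [Set.indicator_of_notMem hpB, zero_add, Set.indicator_of_mem]
      simpa using Nat.lt_succ_of_le (hall p hp hpB)
  · rw [Set.indicator_of_notMem hp]
    exact add_nonneg (Set.indicator_nonneg (fun _ _ => by positivity) p)
      (Set.indicator_nonneg (fun _ _ => by positivity) p)

/-- The primes modulo which an irreducible polynomial of degree at least two has no root have a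
divergent sum of reciprocals. -/
theorem not_summable_no_root {g : ℤ[X]} (hg : g.Monic)
    (hirr : Irreducible (g.map (Int.castRingHom ℚ))) (hd : 2 ≤ g.natDegree) :
    ¬Summable ({p : ℕ | p.Prime ∧ rootsMod g p = 0}.indicator fun n : ℕ => (1 : ℝ) / n) := by
  have : IsSplittingField ℚ (g.map (Int.castRingHom ℚ)).SplittingField
      (g.map (Int.castRingHom ℚ)) := by
    convert! IsSplittingField.splittingField (g.map (Int.castRingHom ℚ)) using 2
  have : FiniteDimensional ℚ (g.map (Int.castRingHom ℚ)).SplittingField :=
    IsSplittingField.finiteDimensional _ (g.map (Int.castRingHom ℚ))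
  have : NumberField (g.map (Int.castRingHom ℚ)).SplittingField := { }
  have : IsGalois ℚ (g.map (Int.castRingHom ℚ)).SplittingField :=
    IsGalois.of_separable_splitting_field hirr.separable
  have hs := IsSplittingField.splits (g.map (Int.castRingHom ℚ)).SplittingField
    (g.map (Int.castRingHom ℚ))
  refine FA.PrimeDivisors.not_summable_of_density
    (hasDirichletDensity_rootsMod hg hirr.separable hs 0) ?_ Set.finite_empty
    fun v hv => Or.inr ⟨FA.Chebotarev.absNorm_prime v, hv⟩
  have hle := card_le_mul_card_no_fixedRoot hg hirr hs hd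
  have hpos : 0 < Nat.card ((g.map (Int.castRingHom ℚ)).SplittingField ≃ₐ[ℚ]
      (g.map (Int.castRingHom ℚ)).SplittingField) := Nat.card_pos
  refine div_ne_zero (Nat.cast_ne_zero.2 fun h => ?_) (Nat.cast_ne_zero.2 hpos.ne')
  rw [h, mul_zero] at hle
  omega

/-- **The theorem of Katz applies when the bad primes have a convergent sum of reciprocals.** -/
theorem nilpotentEnough_of_summable {a : ℕ → ℤ[X]} {n : ℕ}
    (h : Summable ((badPrimes (a n) (companion a n)).indicator fun p : ℕ => (1 : ℝ) / p)) :
    NilpotentEnough a n := by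
  have hgood : ∀ p, p.Prime → p ∉ badPrimes (a n) (companion a n) →
      IsNilpotent (connMat (fun j => (a j).map (Int.castRingHom (ZMod p))) n p) := fun p hp hnot =>
    by_contra fun hn => hnot ⟨hp, by rwa [← connMat_mod_eq]⟩
  refine ⟨fun N => ?_, fun g hg hirr hd N => ?_⟩
  · obtain ⟨p, hp, hpB, hlt⟩ := exists_large_of_not_summable not_summable_one_div_on_primes h N
    exact ⟨p, hp, hlt, hgood p hp hpB⟩
  · obtain ⟨p, ⟨hp, hroot⟩, hpB, hlt⟩ :=
      exists_large_of_not_summable (not_summable_no_root hg hirr hd) h N
    exact ⟨p, hp, hlt, hroot, hgood p hp hpB⟩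

end FA.GFunctions
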