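import Fermat.Agent.GFunctions.Chudnovsky
import Fermat.Agent.GFunctions.Density

/-!
# The minimal equation of a G-function

By Chudnovsky and Katz it has only regular singularities, rational exponents and nilpotent
`p`-curvature outside a set of primes with `∑ 1 / p` finite. So `exp` and the solutions of the
equation of Airy are not G-functions.
-/

set_option autoImplicit false

noncomputable section

namespace FA.GFunctions

open Polynomial Finset
open FA.SiegelShidlovskii (formSeries IsSolution)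
open FA.GlobalNilpotence (companion NilpotentEnough)

theorem IsGFunction.derivative {f : PowerSeries ℚ} (hf : IsGFunction f) :
    IsGFunction (PowerSeries.derivative ℚ f) := by
  obtain ⟨C₀, hC₀, hden⟩ := hf
  have h1 : 1 ≤ C₀ := by
    by_contra h
    obtain ⟨d, hd, hdC, -⟩ := hden 0
    rw [show C₀ = 0 by omega, Nat.zero_add, pow_one] at hdC
    omega
  refine ⟨2 * C₀ ^ 2, fun k => ?_, fun N => ?_⟩
  · rw [PowerSeries.coeff_derivative, abs_mul]
    push_cast
    rw [mul_pow, ← pow_mul, mul_comm ((2 : ℚ) ^ (k + 1))]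
    refine mul_le_mul ((hC₀ (k + 1)).trans
      (pow_le_pow_right₀ (by exact_mod_cast h1) (by omega))) ?_ (abs_nonneg _) (by positivity)
    rw [abs_of_nonneg (by positivity)]
    exact_mod_cast (Nat.lt_two_pow_self (n := k + 1)).le
  · obtain ⟨d, hd, hdC, hz⟩ := hden (N + 1)
    refine ⟨d, hd, hdC.trans ?_, fun k hk => ?_⟩
    · rw [mul_pow, ← pow_mul]
      exact le_trans (Nat.pow_le_pow_right h1 (by omega))
        (Nat.le_mul_of_pos_left _ (pow_pos two_pos _))
    · obtain ⟨z, hz'⟩ := hz (k + 1) (by omega)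
      exact ⟨z * (k + 1 : ℤ), by rw [PowerSeries.coeff_derivative]; push_cast; rw [hz']; ring⟩

theorem IsGFunction.iterate_derivative {f : PowerSeries ℚ} (hf : IsGFunction f) :
    ∀ j, IsGFunction ((PowerSeries.derivative ℚ)^[j] f)
  | 0 => hf
  | j + 1 => by
    rw [Function.iterate_succ_apply']
    exact (hf.iterate_derivative j).derivative

/-- The value of an operator on a series. -/
def applyOp (a : ℕ → ℤ[X]) (n : ℕ) (f : PowerSeries ℚ) : PowerSeries ℚ :=
  ∑ j ∈ range n, ((a j).map (Int.castRingHom ℚ) : PowerSeries ℚ) *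
    (PowerSeries.derivative ℚ)^[j] f

/-- An equation `a n f⁽ⁿ⁾ + … + a 0 f = 0` of least order. -/
def IsMinimalEquation (a : ℕ → ℤ[X]) (n : ℕ) (f : PowerSeries ℚ) : Prop :=
  a n ≠ 0 ∧ applyOp a (n + 1) f = 0 ∧ ∀ b : ℕ → ℤ[X], applyOp b n f = 0 → ∀ j < n, b j = 0

/-- **A series with a linear differential equation has a minimal one.** -/
theorem exists_minimalEquation {f : PowerSeries ℚ} {a : ℕ → ℤ[X]} {n : ℕ}
    (ha : ∃ j ≤ n, a j ≠ 0) (h : applyOp a (n + 1) f = 0) :
    ∃ (m : ℕ) (b : ℕ → ℤ[X]), m ≤ n ∧ IsMinimalEquation b m f := by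
  classical
  have top : ∀ (k : ℕ) (b : ℕ → ℤ[X]), (∃ j < k, b j ≠ 0) → applyOp b k f = 0 →
      ∃ m < k, ∃ b : ℕ → ℤ[X], b m ≠ 0 ∧ applyOp b (m + 1) f = 0 := by
    intro k b hb hk
    obtain ⟨j, hj, hj0⟩ := hb
    have hne : ((range k).filter fun i => b i ≠ 0).Nonempty :=
      ⟨j, Finset.mem_filter.2 ⟨Finset.mem_range.2 hj, hj0⟩⟩
    obtain ⟨hm, hm0⟩ := Finset.mem_filter.1 (Finset.max'_mem _ hne)
    refine ⟨_, Finset.mem_range.1 hm, b, hm0, ?_⟩
    rw [← hk]
    refine Finset.sum_subset (fun i hi => ?_) fun i hi hnot => ?_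
    · rw [Finset.mem_range] at hi hm ⊢
      omega
    · have h0 : b i = 0 := by
        by_contra h0
        exact hnot (Finset.mem_range.2 (Nat.lt_succ_of_le
          (Finset.le_max' _ i (Finset.mem_filter.2 ⟨hi, h0⟩))))
      simp [h0]
  obtain ⟨j, hj, hj0⟩ := ha
  obtain ⟨m₀, hm₀, hex⟩ := top (n + 1) a ⟨j, Nat.lt_succ_of_le hj, hj0⟩ h
  have hex' : ∃ m, ∃ b : ℕ → ℤ[X], b m ≠ 0 ∧ applyOp b (m + 1) f = 0 := ⟨m₀, hex⟩
  obtain ⟨b, hb, hb'⟩ := Nat.find_spec hex'
  refine ⟨Nat.find hex', b, (Nat.find_min' hex' hex).trans (Nat.le_of_lt_succ hm₀), hb, hb',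
    fun c hc i hi => ?_⟩
  by_contra hne
  obtain ⟨m, hm, hm'⟩ := top _ c ⟨i, hi, hne⟩ hc
  exact Nat.find_min hex' hm hm'

variable {f : PowerSeries ℚ} {a : ℕ → ℤ[X]} {n : ℕ}

/-- The derivatives are independent over the polynomials. -/
theorem IsMinimalEquation.independent (h : IsMinimalEquation a n f) (P : Fin n → ℚ[X])
    (hP : formSeries (fun j : Fin n => (PowerSeries.derivative ℚ)^[(j : ℕ)] f) P = 0) : P = 0 := by
  classical
  choose d F hd hF using fun j => FA.KroneckerHonda.exists_integral_multiple (P j)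
  obtain ⟨b, hb⟩ : ∃ b : ℕ → ℤ[X], b = fun j => if hj : j < n then
      C (∏ i ∈ univ.erase ⟨j, hj⟩, d i) * F ⟨j, hj⟩ else 0 := ⟨_, rfl⟩
  have hbm : ∀ j : Fin n,
      (b j).map (Int.castRingHom ℚ) = C ((∏ i, d i : ℤ) : ℚ) * P j := fun j => by
    rw [hb]
    simp only [j.2, dif_pos, Fin.eta, Polynomial.map_mul, map_C, hF]
    rw [← mul_assoc, ← C_mul, eq_intCast, ← Finset.mul_prod_erase univ d (mem_univ j)]
    push_cast
    rw [mul_comm]
    ring_nf
  have h0 : applyOp b n f = 0 := by
    rw [applyOp, Finset.sum_range, ← mul_zero (PowerSeries.C ((∏ i, d i : ℤ) : ℚ)), ← hP,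
      formSeries, Finset.mul_sum]
    exact Finset.sum_congr rfl fun j _ => by
      rw [hbm, Polynomial.coe_mul, Polynomial.coe_C, mul_assoc]
  funext j
  have h1 := hbm j
  rw [h.2.2 b h0 j j.2, Polynomial.map_zero] at h1
  exact (mul_eq_zero.1 h1.symm).resolve_left
    (C_ne_zero.2 (Int.cast_ne_zero.2 (Finset.prod_ne_zero_iff.2 fun i _ => hd i)))

/-- The derivatives solve the companion system. -/
theorem isSolution_companion (h : applyOp a (n + 1) f = 0) :
    IsSolution ((a n).map (Int.castRingHom ℚ))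
      ((companion a n).map (Polynomial.map (Int.castRingHom ℚ)))
      fun j : Fin n => (PowerSeries.derivative ℚ)^[(j : ℕ)] f := by
  intro i
  simp only [Matrix.map_apply, companion, Matrix.of_apply, ← Function.iterate_succ_apply'
    (f := (PowerSeries.derivative ℚ : PowerSeries ℚ → PowerSeries ℚ))]
  by_cases hi : (i : ℕ) + 1 = n
  · have h1 : ∀ l : Fin n, ¬(l : ℕ) = (i : ℕ) + 1 := fun l => by omega
    simp only [h1, if_false]
    simp only [hi, if_true, Polynomial.map_neg, Polynomial.coe_neg, neg_mul,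
      Finset.sum_neg_distrib]
    rw [applyOp, Finset.sum_range_succ, Finset.sum_range, add_comm] at h
    rw [show (i : ℕ).succ = n from hi]
    exact eq_neg_of_add_eq_zero_left h
  · rw [Finset.sum_eq_single (⟨(i : ℕ) + 1, by omega⟩ : Fin n) (fun l _ hl => ?_)
      (fun hnot => absurd (mem_univ _) hnot), if_pos rfl]
    rw [if_neg fun h' => hl (Fin.ext h'), if_neg hi, Polynomial.map_zero, Polynomial.coe_zero,
      zero_mul]

/-- **Chudnovsky for the minimal equation.** -/
theorem IsMinimalEquation.galochkin (h : IsMinimalEquation a n f) (hf : IsGFunction f) :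
    Galochkin (a n) (companion a n) :=
  galochkin_of_gfunctions h.1 (fun _ => hf.iterate_derivative _) h.independent
    (isSolution_companion h.2.1)

theorem IsMinimalEquation.nilpotentEnough (h : IsMinimalEquation a n f) (hf : IsGFunction f) :
    NilpotentEnough a n :=
  nilpotentEnough_of_summable (summable_one_div_badPrimes (h.galochkin hf))

/-- The exponential series is not a G-function. -/
theorem not_isGFunction_exp : ¬IsGFunction (PowerSeries.exp ℚ) := by
  intro hf
  have hne : PowerSeries.exp ℚ ≠ 0 := fun e => by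
    simpa [PowerSeries.coeff_exp] using congrArg (PowerSeries.coeff 0) e
  have h : IsMinimalEquation (fun j => if j = 1 then (1 : ℤ[X]) else -1) 1
      (PowerSeries.exp ℚ) := by
    refine ⟨by simp, ?_, fun b hb j hj => ?_⟩
    · simp [applyOp, Finset.sum_range_succ, PowerSeries.derivative_exp]
    · obtain rfl : j = 0 := by omega
      simp only [applyOp, Finset.sum_range_one, Function.iterate_zero_apply, mul_eq_zero, hne,
        or_false] at hb
      exact (Polynomial.map_eq_zero_iff (Int.castRingHom ℚ).injective_int).1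
        (Polynomial.coe_eq_zero_iff.1 hb)
  have h1 := FA.GlobalNilpotence.natDegree_add_le (h.nilpotentEnough hf) h.1 (l := 0) zero_le_one
    (by simp)
  simp at h1

/-- The Riccati equation of Airy has no rational solution. -/
theorem riccati_no_solution {b₀ b₁ : ℚ[X]}
    (h : b₁ ^ 2 * X + derivative b₀ * b₁ - b₀ * derivative b₁ - b₀ ^ 2 = 0) :
    b₀ = 0 ∧ b₁ = 0 := by
  by_cases h1 : b₁ = 0
  · subst h1
    exact ⟨by simpa using h, rfl⟩
  exfalso
  obtain ⟨W, hW⟩ : ∃ W, W = b₀ * derivative b₁ - derivative b₀ * b₁ := ⟨_, rfl⟩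
  have heq : b₁ ^ 2 * X = b₀ ^ 2 + W := by
    rw [hW]
    linear_combination h
  have hdeg : (b₁ ^ 2 * X).natDegree = 2 * b₁.natDegree + 1 := by
    rw [natDegree_mul (pow_ne_zero _ h1) X_ne_zero, natDegree_pow, natDegree_X]
  have hWd : W.natDegree ≤ b₀.natDegree + b₁.natDegree := hW ▸ (natDegree_sub_le _ _).trans
    (max_le (natDegree_mul_le.trans (Nat.add_le_add_left
        ((natDegree_derivative_le _).trans (Nat.sub_le _ _)) _))
      (natDegree_mul_le.trans (Nat.add_le_add_right
        ((natDegree_derivative_le _).trans (Nat.sub_le _ _)) _)))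
  rcases le_or_gt b₀.natDegree b₁.natDegree with hle | hlt
  · have h2 : (b₀ ^ 2 + W).natDegree ≤ 2 * b₁.natDegree :=
      (natDegree_add_le _ _).trans (max_le (by rw [natDegree_pow]; omega) (by omega))
    rw [← heq] at h2
    omega
  · have h2 : (b₀ ^ 2 + W).natDegree = 2 * b₀.natDegree := by
      rw [natDegree_add_eq_left_of_natDegree_lt (by rw [natDegree_pow]; omega), natDegree_pow]
    rw [← heq] at h2
    omega

/-- No nonzero solution of the equation of Airy is a G-function. -/
theorem not_isGFunction_airy (hf0 : f ≠ 0)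
    (hf : (PowerSeries.derivative ℚ)^[2] f = PowerSeries.X * f) : ¬IsGFunction f := by
  intro hG
  have h : IsMinimalEquation (fun j => if j = 2 then (1 : ℤ[X]) else if j = 0 then -X else 0) 2
      f := by
    refine ⟨by simp, ?_, fun b hb j hj => ?_⟩
    · simp only [applyOp, Finset.sum_range_succ, Finset.sum_range_zero, hf]
      simp
    · simp only [applyOp, Finset.sum_range_succ, Finset.sum_range_zero, zero_add,
        Function.iterate_zero_apply, Function.iterate_one] at hb
      simp only [Function.iterate_succ_apply, Function.iterate_zero_apply] at hf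
      obtain ⟨b₀, hb₀⟩ : ∃ b₀, b₀ = (b 0).map (Int.castRingHom ℚ) := ⟨_, rfl⟩
      obtain ⟨b₁, hb₁⟩ : ∃ b₁, b₁ = (b 1).map (Int.castRingHom ℚ) := ⟨_, rfl⟩
      rw [← hb₀, ← hb₁] at hb
      have h2 := congrArg (PowerSeries.derivative ℚ) hb
      simp only [map_add, map_zero, Derivation.leibniz, smul_eq_mul,
        PowerSeries.derivative_coe, hf] at h2
      have h3 : ((b₁ ^ 2 * X + derivative b₀ * b₁ - b₀ * derivative b₁ - b₀ ^ 2 : ℚ[X]) :
          PowerSeries ℚ) * f = 0 := by
        simp only [Polynomial.coe_sub, Polynomial.coe_add, Polynomial.coe_mul, Polynomial.coe_pow,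
          Polynomial.coe_X]
        linear_combination (b₁ : PowerSeries ℚ) * h2 -
          ((b₀ : PowerSeries ℚ) + (derivative b₁ : PowerSeries ℚ)) * hb
      obtain ⟨e0, e1⟩ := riccati_no_solution
        (Polynomial.coe_eq_zero_iff.1 ((mul_eq_zero.1 h3).resolve_right hf0))
      interval_cases j
      · exact (Polynomial.map_eq_zero_iff (Int.castRingHom ℚ).injective_int).1 (hb₀ ▸ e0)
      · exact (Polynomial.map_eq_zero_iff (Int.castRingHom ℚ).injective_int).1 (hb₁ ▸ e1)
  have h1 := FA.GlobalNilpotence.natDegree_add_le (h.nilpotentEnough hG) h.1 (l := 0)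
    (Nat.zero_le 2) (by simp)
  simp at h1

end FA.GFunctions
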