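import Fermat.Agent.GFunctions.Operators
import Fermat.Agent.KroneckerHonda.Curvature

/-!
# Galochkin's condition gives nilpotent `p`-curvatures

Modulo `p` the matrix `solIter T A (p m)` is up to sign the `m`-th power of the `p`-curvature, so a
prime with a non-nilpotent `p`-curvature divides the common denominator `D s` to the power `s / p`.
If `D s` grows geometrically then `∑ log p / p` over these primes is finite.
-/

set_option autoImplicit false

noncomputable section

namespace FA.GFunctions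

open Polynomial Finset
open scoped Nat Matrix

variable {n : ℕ}

/-- Galochkin's condition: the matrices of `y ↦ y⁽ˢ⁾ / s!` on solutions have geometrically growing
denominators. -/
def Galochkin (T : ℤ[X]) (A : Matrix (Fin n) (Fin n) ℤ[X]) : Prop :=
  ∃ C : ℕ, ∀ s : ℕ, ∃ D : ℕ, 0 < D ∧ D ≤ C ^ (s + 1) ∧ ∀ t ≤ s, ∀ (i j : Fin n) (e : ℕ),
    (t ! : ℤ) ∣ (D : ℤ) * (solIter T A t i j).coeff e

/-- The primes with non-nilpotent `p`-curvature. -/
def badPrimes (T : ℤ[X]) (A : Matrix (Fin n) (Fin n) ℤ[X]) : Set ℕ :=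
  {p : ℕ | p.Prime ∧ ¬IsNilpotent (sysMat (T.map (Int.castRingHom (ZMod p)))
    (A.map (Polynomial.map (Int.castRingHom (ZMod p)))) p)}

section modp

variable {p : ℕ} [Fact p.Prime] {R : Type*} [CommRing R] [CharP R p] (T : R[X])
  (A : Matrix (Fin n) (Fin n) R[X])

theorem iterate_derivative_eq_zero_of_le {i : ℕ} (hi : p ≤ i) (P : R[X]) :
    derivative^[i] P = 0 := by
  obtain ⟨j, rfl⟩ := Nat.exists_eq_add_of_le hi
  rw [Nat.add_comm, Function.iterate_add_apply]
  have h : derivative^[p] P = 0 := by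
    rw [← factorial_smul_hasseDeriv, LinearMap.smul_apply, nsmul_eq_mul,
      (CharP.cast_eq_zero_iff R[X] p p !).2 (Nat.dvd_factorial (Fact.out : p.Prime).pos le_rfl),
      zero_mul]
  rw [h, iterate_derivative_zero]

/-- In characteristic `p` the matrices of index `p m` are the iterates of the same index. -/
theorem solIter_mul_prime (m : ℕ) (w : Fin n → R[X]) :
    solIter T A (p * m) *ᵥ w = fun i => C ((-1 : R) ^ (p * m)) * vIter T A 0 w (p * m) i := by
  funext i
  rw [solIter_mulVec, Finset.sum_eq_single (p * m)]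
  · rw [Nat.choose_self, Nat.sub_self, Nat.cast_one, one_mul]
    rfl
  · intro j hj hne
    rw [Finset.mem_range] at hj
    by_cases hd : p ∣ j
    · obtain ⟨a, rfl⟩ := hd
      have ha : a < m := Nat.lt_of_mul_lt_mul_left (lt_of_le_of_ne (Nat.le_of_lt_succ hj) hne)
      rw [Nat.zero_add, eOp_of_cast_eq_zero T (m := p * a) (by simp), eOp_zero_weight,
        iterate_derivative_eq_zero_of_le (p := p) (by
          rw [← Nat.mul_sub]
          exact Nat.le_mul_of_pos_right p (by omega))]
      simp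
    · have h : ((p * m).choose j : ZMod p) = 0 := by
        rw [ZMod.natCast_eq_zero_iff]
        have h1 := Choose.choose_modEq_choose_mod_mul_choose_div_nat (n := p * m) (k := j) (p := p)
        rw [Nat.mul_mod_right, Nat.choose_eq_zero_of_lt
          (Nat.pos_of_ne_zero fun h0 => hd (Nat.dvd_of_mod_eq_zero h0)), zero_mul] at h1
        exact Nat.modEq_zero_iff_dvd.1 h1
      rw [ZMod.natCast_eq_zero_iff] at h
      rw [(CharP.cast_eq_zero_iff R[X] p _).2 h, zero_mul]
  · intro h
    exact absurd (Finset.mem_range.2 (Nat.lt_succ_self _)) h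

/-- The `p`-th iterate is linear. -/
theorem vIter_prime (w : Fin n → R[X]) :
    vIter T A 0 w p = -(solIter T A p *ᵥ w) := by
  have h := solIter_mul_prime T A (p := p) 1 w
  rw [Nat.mul_one] at h
  rw [h]
  funext i
  have h1 : (-1 : R) ^ p = -1 := by
    rcases (Fact.out : p.Prime).eq_two_or_odd' with rfl | ho
    · rw [neg_one_sq, eq_neg_iff_add_eq_zero, one_add_one_eq_two]
      exact CharP.cast_eq_zero R 2
    · exact ho.neg_one_pow
  simp [h1]

/-- **The `p`-curvature.** -/
theorem solIter_prime : solIter T A p = -sysMat T A p := by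
  refine Matrix.ext_of_mulVec_single fun j => ?_
  rw [Matrix.neg_mulVec, sysMat_mulVec T A _ (fun l => by
    rcases eq_or_ne l j with rfl | hl
    · simp
    · simp [hl]), vIter_prime, neg_neg]

theorem vIter_mul_prime (w : Fin n → R[X]) :
    ∀ m, vIter T A 0 w (p * m) = sysMat T A p ^ m *ᵥ w
  | 0 => by simp [vIter]
  | m + 1 => by
    rw [Nat.mul_succ, vIter_add, Nat.zero_add, vIter_of_cast_eq_zero T A (k := p * m) (by simp),
      vIter_prime, solIter_prime, Matrix.neg_mulVec, neg_neg, vIter_mul_prime w m,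
      Matrix.mulVec_mulVec, pow_succ']

theorem solIter_mul_prime_eq (m : ℕ) :
    solIter T A (p * m) = C ((-1 : R) ^ (p * m)) • sysMat T A p ^ m := by
  refine Matrix.ext_of_mulVec_single fun j => ?_
  rw [solIter_mul_prime, vIter_mul_prime, Matrix.smul_mulVec]
  rfl

end modp

theorem pow_dvd_factorial_mul {p : ℕ} (hp : 0 < p) : ∀ m : ℕ, p ^ m ∣ (p * m)!
  | 0 => by simp
  | m + 1 => by
    obtain ⟨b, hb⟩ : ∃ b, p * (m + 1) = b + 1 := ⟨p * (m + 1) - 1, by
      have := Nat.mul_pos hp (show 0 < m + 1 by omega)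
      omega⟩
    rw [hb, Nat.factorial_succ, pow_succ']
    refine Nat.mul_dvd_mul ⟨m + 1, hb.symm⟩
      ((pow_dvd_factorial_mul hp m).trans (Nat.factorial_dvd_factorial ?_))
    rw [Nat.mul_add, Nat.mul_one] at hb
    omega

/-- A bad prime divides the denominator to the power `s / p`. -/
theorem pow_dvd_of_mem_badPrimes {T : ℤ[X]} {A : Matrix (Fin n) (Fin n) ℤ[X]} {p D s : ℕ}
    (hp : p ∈ badPrimes T A) (hD : ∀ t ≤ s, ∀ (i j : Fin n) (e : ℕ),
      (t ! : ℤ) ∣ (D : ℤ) * (solIter T A t i j).coeff e) : p ^ (s / p) ∣ D := by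
  have : Fact p.Prime := ⟨hp.1⟩
  have hne : (solIter T A (p * (s / p))).map (Polynomial.map (Int.castRingHom (ZMod p))) ≠ 0 := by
    rw [solIter_map, solIter_mul_prime_eq]
    intro h
    refine hp.2 ⟨s / p, ?_⟩
    have h1 := congrArg (fun M : Matrix (Fin n) (Fin n) (ZMod p)[X] =>
      C ((-1 : ZMod p) ^ (p * (s / p))) • M) h
    simpa [smul_smul, ← map_mul, ← mul_pow] using h1
  obtain ⟨i, j, e, he⟩ : ∃ i j e, ¬(p : ℤ) ∣ (solIter T A (p * (s / p)) i j).coeff e := by
    by_contra hall
    push Not at hall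
    refine hne (Matrix.ext fun i j => Polynomial.ext fun e => ?_)
    rw [Matrix.map_apply, coeff_map, Matrix.zero_apply, coeff_zero, eq_intCast,
      ZMod.intCast_zmod_eq_zero_iff_dvd]
    exact hall i j e
  have h1 : ((p ^ (s / p) : ℕ) : ℤ) ∣ (D : ℤ) * (solIter T A (p * (s / p)) i j).coeff e :=
    (Int.natCast_dvd_natCast.2 (pow_dvd_factorial_mul hp.1.pos (s / p))).trans
      (hD _ (Nat.mul_div_le s p) i j e)
  push_cast at h1
  exact_mod_cast (Int.natCast_dvd_natCast (m := p ^ (s / p))).1 (by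
    push_cast
    have hcop := (Nat.prime_iff_prime_int.1 hp.1).coprime_iff_not_dvd.2 he
    exact hcop.pow_left.dvd_of_dvd_mul_right h1)

/-- **Galochkin's condition bounds the sum of `log p / p` over the bad primes.** -/
theorem summable_badPrimes {T : ℤ[X]} {A : Matrix (Fin n) (Fin n) ℤ[X]} (h : Galochkin T A) :
    Summable ((badPrimes T A).indicator fun p : ℕ => Real.log p / p) := by
  classical
  obtain ⟨C₀, hC₀⟩ := h
  refine summable_of_sum_le (c := 2 * Real.log C₀)
    (fun p => Set.indicator_nonneg (fun q _ => div_nonneg (Real.log_natCast_nonneg q)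
      (Nat.cast_nonneg q)) p) fun u => ?_
  rw [← Finset.sum_filter_add_sum_filter_not u (· ∈ badPrimes T A),
    Finset.sum_eq_zero (s := u.filter fun p => p ∉ badPrimes T A) (fun p hp =>
      Set.indicator_of_notMem (Finset.mem_filter.1 hp).2 _), add_zero,
    Finset.sum_congr rfl fun p hp => Set.indicator_of_mem (Finset.mem_filter.1 hp).2 _]
  obtain ⟨S, hS⟩ : ∃ S, S = u.filter fun p => p ∈ badPrimes T A := ⟨_, rfl⟩
  rw [← hS]
  have hmem : ∀ p ∈ S, p ∈ badPrimes T A := fun p hp => (Finset.mem_filter.1 (hS ▸ hp)).2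
  obtain ⟨P, hP⟩ : ∃ P, P = ∏ p ∈ S, p := ⟨_, rfl⟩
  have hP1 : 1 ≤ P := hP ▸ Finset.prod_pos fun p hp => (hmem p hp).1.pos
  obtain ⟨D, hD0, hDC, hD⟩ := hC₀ P
  have hdvd : ∏ p ∈ S, p ^ (P / p) ∣ D := by
    clear hS hP
    induction S using Finset.induction_on with
    | empty => simp
    | insert q S hq ih =>
      rw [Finset.prod_insert hq]
      have hq' := hmem q (Finset.mem_insert_self q S)
      refine Nat.Coprime.mul_dvd_of_dvd_of_dvd (Nat.Coprime.prod_right fun p hp => ?_)
        (pow_dvd_of_mem_badPrimes hq' hD) (ih fun p hp => hmem p (Finset.mem_insert_of_mem hp))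
      exact ((Nat.coprime_primes hq'.1 (hmem p (Finset.mem_insert_of_mem hp)).1).2
        fun e => hq (e ▸ hp)).pow _ _
  have hle : ∏ p ∈ S, p ^ (P / p) ≤ C₀ ^ (P + 1) := (Nat.le_of_dvd hD0 hdvd).trans hDC
  have hle' : ∏ p ∈ S, (p : ℝ) ^ (P / p) ≤ (C₀ : ℝ) ^ (P + 1) := by exact_mod_cast hle
  have hpos : ∀ p ∈ S, (0 : ℝ) < (p : ℝ) ^ (P / p) := fun p hp =>
    pow_pos (Nat.cast_pos.2 (hmem p hp).1.pos) _
  have hlog := Real.log_le_log (Finset.prod_pos hpos) hle'
  rw [Real.log_prod fun p hp => (hpos p hp).ne', Real.log_pow] at hlog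
  have heq : ∀ p ∈ S, Real.log ((p : ℝ) ^ (P / p)) = (P : ℝ) * (Real.log p / p) := fun p hp => by
    rw [Real.log_pow, Nat.cast_div (hP ▸ Finset.dvd_prod_of_mem _ hp)
      (Nat.cast_ne_zero.2 (hmem p hp).1.ne_zero)]
    ring
  rw [Finset.sum_congr rfl heq, ← Finset.mul_sum] at hlog
  have hP' : (1 : ℝ) ≤ P := by exact_mod_cast hP1
  have h0 : 0 ≤ Real.log C₀ := Real.log_natCast_nonneg C₀
  refine le_of_mul_le_mul_left (hlog.trans ?_) (by linarith : (0 : ℝ) < P)
  push_cast
  nlinarith

/-- The bad primes have a convergent sum of reciprocals. -/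
theorem summable_one_div_badPrimes {T : ℤ[X]} {A : Matrix (Fin n) (Fin n) ℤ[X]}
    (h : Galochkin T A) : Summable ((badPrimes T A).indicator fun p : ℕ => (1 : ℝ) / p) := by
  refine ((summable_badPrimes h).mul_left 2).of_nonneg_of_le
    (fun p => Set.indicator_nonneg (fun q _ => by positivity) p) fun p => ?_
  by_cases hp : p ∈ badPrimes T A
  · rw [Set.indicator_of_mem hp, Set.indicator_of_mem hp, ← mul_div_assoc]
    refine div_le_div_of_nonneg_right ?_ (Nat.cast_nonneg p)
    have h2 := Real.log_le_log two_pos (show (2 : ℝ) ≤ p by exact_mod_cast hp.1.two_le)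
    linarith [Real.log_two_gt_d9]
  · simp [Set.indicator_of_notMem hp]

end FA.GFunctions
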