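import Fermat.Agent.GFunctions.Pade
import Fermat.Agent.GFunctions.Galochkin
import Fermat.Agent.SiegelShidlovskii.ZeroEstimate

/-!
# The theorem of Chudnovsky

G-functions, independent over the polynomials, which solve a linear differential system force the
condition of Galochkin on it: the matrix of the iterates of their Padé approximants of the second
kind has a nonzero determinant, by the lemma of Shidlovskii for the dual system, and the content of
this determinant is a common denominator of the `solIter T A t / t!`.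
-/

set_option autoImplicit false

noncomputable section

namespace FA.GFunctions

open Polynomial Finset
open scoped Matrix Nat
open FA.SiegelShidlovskii (l1 l1_nonneg l1_eq_sum l1_mul_le IsSolution formSeries iterDeriv
  iterDeriv_succ vecDeriv map_iterDeriv exists_low_degree_combination exists_order_bound
  exists_minor)

variable {n : ℕ}

/-- The iterates of a vector orthogonal to the first iterates of `P` are orthogonal to `P`. -/
theorem iterDeriv_dot_vIter {R : Type*} [CommRing R] {T : R[X]} {A : Matrix (Fin n) (Fin n) R[X]}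
    {η₀ P : Fin n → R[X]} {l : ℕ} (h : ∀ k < l, ∑ j, η₀ j * vIter T A 0 P k j = 0) :
    ∀ i k, i + k < l → ∑ j, iterDeriv T A η₀ i j * vIter T A 0 P k j = 0 := by
  intro i
  induction i with
  | zero => exact fun k hk => by simpa using h k (by omega)
  | succ i ih =>
    intro k hk
    obtain ⟨η, hη⟩ : ∃ η, η = iterDeriv T A η₀ i := ⟨_, rfl⟩
    obtain ⟨V, hV⟩ : ∃ V, V = vIter T A 0 P k := ⟨_, rfl⟩
    have h0 : ∑ j, η j * V j = 0 := hη ▸ hV ▸ ih k (by omega)
    have h1 : ∑ j, η j * vIter T A 0 P (k + 1) j = 0 := hη ▸ ih (k + 1) (by omega)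
    have h2 := congrArg derivative h0
    simp only [map_sum, derivative_mul, map_zero, Finset.sum_add_distrib] at h2
    simp only [vIter, vStep, ← hV, Matrix.mulVec, dotProduct, mul_sub, Finset.sum_sub_distrib,
      Finset.mul_sum, Nat.zero_add] at h1
    rw [iterDeriv_succ, ← hη, ← hV]
    simp only [vecDeriv, add_mul, Finset.sum_add_distrib, Finset.sum_mul]
    have h3 : ∑ j, η j * ((k : R[X]) * derivative T * V j) =
        (k : R[X]) * derivative T * ∑ j, η j * V j := by
      rw [Finset.mul_sum]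
      exact Finset.sum_congr rfl fun j _ => by ring
    have h4 : ∑ j, ∑ r, η r * A r j * V j = ∑ r, ∑ j, η r * (A r j * V j) := by
      rw [Finset.sum_comm]
      exact Finset.sum_congr rfl fun r _ => Finset.sum_congr rfl fun j _ => by ring
    have h5 : ∑ j, T * derivative (η j) * V j = T * ∑ j, derivative (η j) * V j := by
      rw [Finset.mul_sum]
      exact Finset.sum_congr rfl fun j _ => by ring
    have h6 : ∑ j, η j * (T * derivative (V j)) = T * ∑ j, η j * derivative (V j) := by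
      rw [Finset.mul_sum]
      exact Finset.sum_congr rfl fun j _ => by ring
    rw [h3, h0, h6, mul_zero] at h1
    rw [h4, h5]
    linear_combination T * h2 - h1

/-- **Shidlovskii's lemma for the dual system.** -/
theorem exists_low_annihilator {T : ℚ[X]} (hT : T ≠ 0) (A : Matrix (Fin n) (Fin n) ℚ[X]) :
    ∃ γ : ℕ, ∀ η₀ P : Fin n → ℚ[X], η₀ ≠ 0 → P ≠ 0 →
      (∀ i < n, ∑ j, iterDeriv T A η₀ i j * P j = 0) →
      ∃ c : Fin n → ℚ[X], c ≠ 0 ∧ (∀ j, (c j).natDegree ≤ γ) ∧ ∑ j, c j * P j = 0 := by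
  classical
  obtain ⟨α, hα⟩ : ∃ α : ℚ, T.eval α ≠ 0 := by
    by_contra hall
    push Not at hall
    exact hT (Polynomial.funext fun x => by rw [hall x, eval_zero])
  obtain ⟨τ, hτ⟩ : ∃ τ : ℚ[X] →+* ℚ[X], τ = compRingHom (X + C α) := ⟨_, rfl⟩
  obtain ⟨σ, hσ⟩ : ∃ σ : ℚ[X] →+* ℚ[X], σ = compRingHom (X - C α) := ⟨_, rfl⟩
  have hστ : ∀ p, σ (τ p) = p := fun p => by
    rw [hσ, hτ, coe_compRingHom_apply, coe_compRingHom_apply, comp_assoc, add_comp, X_comp, C_comp,
      sub_add_cancel, comp_X]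
  have hτσ : ∀ p, τ (σ p) = p := fun p => by
    rw [hσ, hτ, coe_compRingHom_apply, coe_compRingHom_apply, comp_assoc, sub_comp, X_comp, C_comp,
      add_sub_cancel_right, comp_X]
  have hτd : ∀ p, τ (derivative p) = derivative (τ p) := fun p => by
    rw [hτ, coe_compRingHom_apply, coe_compRingHom_apply, derivative_comp]
    simp
  obtain ⟨γ, hγ⟩ := exists_low_degree_combination (τ T) (by
    rw [hτ, coe_compRingHom_apply, coeff_zero_eq_eval_zero, eval_comp]
    simpa using hα) (A.map τ)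
  refine ⟨γ, fun η₀ P hη hP horth => ?_⟩
  obtain ⟨Φ, hΦ⟩ : ∃ Φ, Φ = iterDeriv T A η₀ := ⟨_, rfl⟩
  rcases Nat.eq_zero_or_pos n with hn | hn
  · subst hn
    exact absurd (_root_.funext fun j : Fin 0 => j.elim0) hP
  have hdet : (Matrix.of fun k j : Fin n => Φ k j).det = 0 :=
    Matrix.exists_mulVec_eq_zero_iff.1 ⟨P, hP, funext fun k => hΦ ▸ horth k k.2⟩
  obtain ⟨v, hv, hvM⟩ := Matrix.exists_vecMul_eq_zero_iff.2 hdet
  have hdep : ∃ l, ¬LinearIndependent ℚ[X] fun k : Fin (l + 1) => Φ k := by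
    refine ⟨n - 1, fun hli => hv ?_⟩
    have h1 := Fintype.linearIndependent_iff.1
      (hli.comp (Fin.cast (show n = n - 1 + 1 by omega)) (Fin.cast_injective _)) v ?_
    · exact funext h1
    · funext j
      have := congrFun hvM j
      simpa [Matrix.vecMul, dotProduct] using this
  obtain ⟨l, hl⟩ : ∃ l, l = Nat.find hdep := ⟨_, rfl⟩
  have hspec : ¬LinearIndependent ℚ[X] fun k : Fin (l + 1) => Φ k := hl ▸ Nat.find_spec hdep
  have hmin : ∀ m < l, LinearIndependent ℚ[X] fun k : Fin (m + 1) => Φ k := fun m hm =>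
    not_not.1 (Nat.find_min hdep (hl ▸ hm))
  have hl0 : 0 < l := by
    by_contra h0
    obtain rfl : l = 0 := by omega
    refine hspec (Fintype.linearIndependent_iff.2 fun g hg i => ?_)
    obtain ⟨j, hj⟩ : ∃ j, η₀ j ≠ 0 := by
      by_contra hall
      push Not at hall
      exact hη (funext hall)
    have h2 := congrFun hg j
    rw [Fin.sum_univ_one, Pi.smul_apply, smul_eq_mul, Pi.zero_apply, mul_eq_zero] at h2
    rw [Fin.fin_one_eq_zero i]
    exact h2.resolve_right (by simpa [hΦ] using hj)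
  have hli : LinearIndependent ℚ[X] fun k : Fin l => Φ k :=
    (hmin (l - 1) (by omega)).comp (Fin.cast (show l = l - 1 + 1 by omega)) (Fin.cast_injective _)
  have hln : l ≤ n := by
    have h1 := hli.fintype_card_le_finrank
    simpa using h1
  obtain ⟨e, he, a, hea⟩ : ∃ e : ℚ[X], e ≠ 0 ∧ ∃ a : Fin l → ℚ[X],
      ∀ j, e * Φ l j = ∑ k, a k * Φ k j := by
    obtain ⟨g, hg, i, hi⟩ := Fintype.not_linearIndependent_iff.1 hspec
    have hg' : ∀ j, ∑ k : Fin l, g k.castSucc * Φ k j + g (Fin.last l) * Φ l j = 0 := fun j => by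
      have := congrFun hg j
      simpa [Fin.sum_univ_castSucc, Finset.sum_apply] using this
    refine ⟨g (Fin.last l), fun h0 => hi ?_, fun k => -g k.castSucc, fun j => ?_⟩
    · have h1 := Fintype.linearIndependent_iff.1 hli (fun k => g k.castSucc) (funext fun j => by
        have := hg' j
        rw [h0, zero_mul, add_zero] at this
        simpa [Finset.sum_apply] using this)
      rcases Fin.eq_castSucc_or_eq_last i with ⟨i', rfl⟩ | rfl
      · exact h1 i'
      · exact h0
    · rw [Finset.sum_congr rfl fun k _ => neg_mul _ _, Finset.sum_neg_distrib]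
      linear_combination hg' j
  obtain ⟨J, hJ⟩ := exists_minor hli
  have hmap : ∀ k j, iterDeriv (τ T) (A.map τ) (fun j => τ (η₀ j)) k j = τ (Φ k j) := fun k j =>
    hΦ ▸ (congrFun (map_iterDeriv τ hτd T A η₀ k) j).symm
  have hdet' : (Matrix.of fun k j : Fin l =>
      iterDeriv (τ T) (A.map τ) (fun j => τ (η₀ j)) k (J j)).det =
        τ (Matrix.of fun k j : Fin l => Φ k (J j)).det := by
    rw [RingHom.map_det]
    congr 1
    ext1 k j
    simp [hmap]
  obtain ⟨c', hc'0, hc'd, a', ha'⟩ := hγ (fun j => τ (η₀ j)) l J hl0 (by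
    rw [hdet']
    exact fun h => hJ (by rw [← hστ (Matrix.of fun k j : Fin l => Φ k (J j)).det, h, map_zero]))
    ⟨τ e, fun h => he (by rw [← hστ e, h, map_zero]), fun k => τ (a k), fun j => by
      simp only [hmap, ← map_mul, ← map_sum, hea]⟩
  refine ⟨fun j => σ (c' j), fun h => hc'0 (funext fun j => ?_), fun j => ?_, ?_⟩
  · have h1 : σ (c' j) = 0 := congrFun h j
    rw [← hτσ (c' j), h1, map_zero]
    rfl
  · simp only [hσ, coe_compRingHom_apply, natDegree_comp, natDegree_X_sub_C, mul_one]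
    exact hc'd j
  · refine (mul_eq_zero.1 (?_ : (Matrix.of fun k j : Fin l => Φ k (J j)).det * _ = 0)).resolve_left
      hJ
    have h1 : ∀ j, (Matrix.of fun k j : Fin l => Φ k (J j)).det * σ (c' j) =
        ∑ k, σ (a' k) * Φ k j := fun j => by
      have h2 := congrArg σ (ha' j)
      rw [hdet', map_mul, map_sum, hστ] at h2
      simpa [map_mul, hmap, hστ] using h2
    rw [Finset.mul_sum, Finset.sum_congr rfl fun j _ => by rw [← mul_assoc, h1 j, Finset.sum_mul],
      Finset.sum_comm]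
    refine Finset.sum_eq_zero fun k _ => ?_
    rw [Finset.sum_congr rfl fun j _ => mul_assoc _ _ _, ← Finset.mul_sum]
    rw [show ∑ j, Φ k j * P j = 0 from hΦ ▸ horth k (lt_of_lt_of_le k.2 hln), mul_zero]

theorem vIter_const_mul {R : Type*} [CommRing R] (T : R[X]) (A : Matrix (Fin n) (Fin n) R[X])
    (c : R) (k : ℕ) (w : Fin n → R[X]) :
    ∀ t, vIter T A k (fun i => C c * w i) t = fun i => C c * vIter T A k w t i
  | 0 => rfl
  | t + 1 => by
    funext i
    simp only [vIter, vIter_const_mul T A c k w t, vStep, derivative_mul, derivative_C, zero_mul,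
      zero_add, Matrix.mulVec, dotProduct, mul_sub, Finset.mul_sum]
    congr 1
    · ring
    · exact Finset.sum_congr rfl fun j _ => by ring

/-- The columns of iterates give the numerators of the solutions up to factorials. -/
theorem factorial_dvd_mulVec {T : ℤ[X]} (hT : T ≠ 0) (A : Matrix (Fin n) (Fin n) ℤ[X])
    (u : ℕ → Fin n → ℤ[X]) {K : ℕ}
    (hu : ∀ t ≤ K, vIter T A 0 (u 0) t = fun i => (t ! : ℤ[X]) * u t i)
    {t k : ℕ} (htk : t + k ≤ K) (i : Fin n) :
    (t ! : ℤ[X]) ∣ (solIter T A t *ᵥ u k) i := by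
  refine (mul_dvd_mul_iff_left (show (k ! : ℤ[X]) ≠ 0 from
    Nat.cast_ne_zero.2 (Nat.factorial_ne_zero k))).1 ?_
  have h : (k ! : ℤ[X]) * (solIter T A t *ᵥ u k) i = (solIter T A t *ᵥ vIter T A 0 (u 0) k) i := by
    rw [hu k (by omega)]
    simp only [Matrix.mulVec, dotProduct, Finset.mul_sum]
    exact Finset.sum_congr rfl fun j _ => by ring
  rw [h, solIter_mulVec]
  refine Finset.dvd_sum fun j hj => ?_
  rw [Finset.mem_range] at hj
  have h2 : vIter T A k (vIter T A 0 (u 0) k) j = fun i => ((k + j)! : ℤ[X]) * u (k + j) i := by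
    have h3 := vIter_add T A 0 (u 0) k j
    rw [Nat.zero_add] at h3
    rw [← h3, hu (k + j) (by omega)]
  rw [h2, eOp_const_mul _ _ _ (derivative_natCast ..)]
  obtain ⟨W, hW⟩ := factorial_dvd_eOp hT (k + j) (t - j) (u (k + j) i)
  refine ⟨C ((-1 : ℤ) ^ j) * ((k + j).choose k : ℤ[X]) * W, ?_⟩
  rw [hW]
  have e1 := Nat.choose_mul_factorial_mul_factorial (show j ≤ t by omega)
  have e2 := Nat.choose_mul_factorial_mul_factorial (show k ≤ k + j by omega)
  rw [Nat.add_sub_cancel_left] at e2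
  rw [← e1, ← e2]
  push_cast
  ring

/-- **The theorem of Chudnovsky.** -/
theorem galochkin_of_gfunctions {T : ℤ[X]} (hT : T ≠ 0) {A : Matrix (Fin n) (Fin n) ℤ[X]}
    {f : Fin n → PowerSeries ℚ} (hG : ∀ j, IsGFunction (f j))
    (hind : ∀ P : Fin n → ℚ[X], formSeries f P = 0 → P = 0)
    (hf : IsSolution (T.map (Int.castRingHom ℚ))
      (A.map (Polynomial.map (Int.castRingHom ℚ))) f) :
    Galochkin T A := by
  classical
  rcases Nat.eq_zero_or_pos n with hn | hn
  · subst hn
    exact ⟨1, fun s => ⟨1, one_pos, by simp, fun t _ i => i.elim0⟩⟩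
  obtain ⟨TQ, hTQ⟩ : ∃ TQ, TQ = T.map (Int.castRingHom ℚ) := ⟨_, rfl⟩
  obtain ⟨AQ, hAQ⟩ : ∃ AQ, AQ = A.map (Polynomial.map (Int.castRingHom ℚ)) := ⟨_, rfl⟩
  rw [← hTQ, ← hAQ] at hf
  have hinj := (Int.castRingHom ℚ).injective_int
  have hTQ0 : TQ ≠ 0 := hTQ ▸ (Polynomial.map_ne_zero_iff hinj).2 hT
  obtain ⟨δ, hδT, hδA⟩ : ∃ δ, TQ.natDegree ≤ δ ∧ ∀ i j, (AQ i j).natDegree ≤ δ :=
    ⟨TQ.natDegree + ∑ i, ∑ j, (AQ i j).natDegree, Nat.le_add_right _ _, fun i j =>
      le_trans (le_trans (Finset.single_le_sum (f := fun j => (AQ i j).natDegree)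
        (fun _ _ => Nat.zero_le _) (mem_univ j)) (Finset.single_le_sum
        (f := fun i => ∑ j, (AQ i j).natDegree) (fun _ _ => Nat.zero_le _) (mem_univ i)))
        (Nat.le_add_left _ _)⟩
  obtain ⟨C₀, hC₀, hbound, hden⟩ := exists_gfunction_constant hG
  obtain ⟨γ, hγ⟩ := exists_low_annihilator hTQ0 AQ
  obtain ⟨N₀, hN₀⟩ := exists_order_bound hind γ
  obtain ⟨Tn, hTn⟩ : ∃ Tn : ℕ, Tn = ⌈l1 T⌉₊ + 1 := ⟨_, rfl⟩
  obtain ⟨G, hGdef⟩ : ∃ G : ℕ, G = n ! * (16 * C₀ ^ 4 * Tn) ^ n := ⟨_, rfl⟩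
  obtain ⟨E, hE⟩ : ∃ E : ℕ, E = (2 * n + 1) * ((δ + 1) * (1 + n) + N₀ + 1) + 1 := ⟨_, rfl⟩
  have hG1 : 1 ≤ G := hGdef ▸ Nat.mul_pos (Nat.factorial_pos n)
    (pow_pos (Nat.mul_pos (Nat.mul_pos (by norm_num) (pow_pos (by omega) 4)) (by omega)) n)
  refine ⟨G ^ E, fun s => ?_⟩
  obtain ⟨M, hM⟩ : ∃ M, M = (δ + 1) * (s + n) + N₀ + 1 := ⟨_, rfl⟩
  obtain ⟨N, hN⟩ : ∃ N, N = 2 * (n * M) := ⟨_, rfl⟩
  obtain ⟨L, hL⟩ : ∃ L, L = N + M := ⟨_, rfl⟩
  have hLE : L + 1 ≤ E * (s + 1) := by
    have h1 : M ≤ ((δ + 1) * (1 + n) + N₀ + 1) * (s + 1) := by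
      have h2 : s + n ≤ (1 + n) * (s + 1) := by nlinarith
      have h3 := Nat.mul_le_mul_left (δ + 1) h2
      subst hM
      nlinarith
    have h4 := Nat.mul_le_mul_left (2 * n + 1) h1
    subst hE hL hN
    nlinarith
  obtain ⟨d, hd0, hdC, hdz⟩ := hden L
  obtain ⟨Q, hQ0, hQd, hQl, hQc⟩ := exists_pade (M := M) (N := N) hC₀ hbound hdC hd0 hdz hn
    (by omega) (by omega) hL.ge
  obtain ⟨QQ, hQQ⟩ : ∃ QQ, QQ = Q.map (Int.castRingHom ℚ) := ⟨_, rfl⟩
  obtain ⟨P, hPdef⟩ : ∃ P : Fin n → ℚ[X],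
      P = fun j => PowerSeries.trunc (N + 1) ((QQ : PowerSeries ℚ) * f j) := ⟨_, rfl⟩
  have hPd : ∀ j, (P j).natDegree ≤ N := fun j => hPdef ▸
    Nat.le_of_lt_succ (PowerSeries.natDegree_trunc_lt _ N)
  have hPc : ∀ j e, e ≤ N + M →
      (P j).coeff e = PowerSeries.coeff e ((QQ : PowerSeries ℚ) * f j) := fun j e he => by
    rw [hPdef, PowerSeries.coeff_trunc]
    split_ifs with h
    · rfl
    · rw [hQQ, hQc j e (by omega) he]
  -- the integral iterates
  obtain ⟨B, hB⟩ : ∃ B : ℝ, B = (((16 * C₀ ^ 4 * Tn : ℕ) : ℝ)) ^ (L + 1) := ⟨_, rfl⟩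
  have hu : ∀ (t : ℕ) (j : Fin n), ∃ u : ℤ[X], t ≤ s + n → l1 u ≤ B ∧
      C (d : ℚ) * vIter TQ AQ 0 P t j = (t ! : ℚ[X]) * u.map (Int.castRingHom ℚ) := fun t j => by
    by_cases ht : t ≤ s + n
    · have htM : t * (δ + 1) ≤ M := by
        subst hM
        nlinarith [Nat.mul_le_mul_right (δ + 1) ht]
      have htd : N + t * δ ≤ L := by
        rw [Nat.mul_add, Nat.mul_one] at htM
        omega
      obtain ⟨W, hW⟩ : ∃ W, W = T ^ t * hasseDeriv t Q := ⟨_, rfl⟩
      have hWm : TQ ^ t * derivative^[t] QQ = (t ! : ℚ[X]) * W.map (Int.castRingHom ℚ) := by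
        rw [hW, hTQ, hQQ, iterate_derivative_map, ← factorial_smul_hasseDeriv, LinearMap.smul_apply,
          nsmul_eq_mul]
        simp only [Polynomial.map_mul, Polynomial.map_pow, Polynomial.map_natCast]
        ring
      choose! z hz using hdz
      obtain ⟨u, hudef⟩ : ∃ u : ℤ[X], u = ∑ e ∈ range (N + t * δ + 1),
          monomial e (∑ i ∈ range (e + 1), W.coeff i * z j (e - i)) := ⟨_, rfl⟩
      have huc : ∀ e, (u.coeff e : ℚ) = if e ≤ N + t * δ then (d : ℚ) * PowerSeries.coeff e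
          ((W.map (Int.castRingHom ℚ) : PowerSeries ℚ) * f j) else 0 := fun e => by
        rw [hudef, finsetSum_coeff]
        simp only [coeff_monomial, Finset.sum_ite_eq', Finset.mem_range, Nat.lt_succ_iff]
        split_ifs with he
        · rw [coeff_polynomial_mul, Finset.mul_sum]
          push_cast
          refine Finset.sum_congr rfl fun i hi => ?_
          rw [hz j (e - i) (by omega), coeff_map, eq_intCast]
          ring
        · simp
      refine ⟨u, fun _ => ⟨?_, ?_⟩⟩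
      · have hud : u.natDegree < L + 1 := Nat.lt_succ_of_le (hudef ▸
          natDegree_sum_le_of_forall_le _ _ fun e he => (natDegree_monomial_le _).trans (by
            rw [Finset.mem_range] at he
            omega))
        rw [l1_eq_sum _ hud]
        have hC' : (1 : ℝ) ≤ C₀ := by exact_mod_cast hC₀
        have hTn' : l1 T ≤ Tn := by
          rw [hTn, Nat.cast_add, Nat.cast_one]
          linarith [Nat.le_ceil (l1 T)]
        have hTn1 : (1 : ℝ) ≤ Tn := by
          rw [hTn]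
          push_cast
          linarith [(Nat.cast_nonneg ⌈l1 T⌉₊ : (0 : ℝ) ≤ _)]
        have h2 : ((L : ℝ) + 1) ≤ 2 ^ (L + 1) := by exact_mod_cast (Nat.lt_two_pow_self).le
        have hWl : l1 W ≤ (Tn : ℝ) ^ (L + 1) * 2 ^ (L + 1) *
            (((L : ℝ) + 1) ^ 2 * (C₀ : ℝ) ^ (2 * (L + 1))) := by
          rw [hW, mul_assoc]
          refine (l1_mul_le _ _).trans (mul_le_mul ((l1_pow_le _ _).trans ?_)
            ((l1_hasseDeriv_le _ _).trans ?_) (l1_nonneg _) (by positivity))
          · refine (pow_le_pow_left₀ (l1_nonneg _) hTn' t).trans (pow_le_pow_right₀ hTn1 ?_)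
            have := Nat.le_mul_of_pos_right t (show 0 < δ + 1 by omega)
            omega
          · refine mul_le_mul (pow_le_pow_right₀ one_le_two (by omega)) (hQl.trans ?_)
              (l1_nonneg _) (by positivity)
            gcongr
            exact_mod_cast (by omega : N ≤ L)
        refine (Finset.sum_le_card_nsmul _ _ ((C₀ : ℝ) ^ (L + 1) *
          (l1 W * (C₀ : ℝ) ^ (L + 1))) fun e he => ?_).trans ?_
        · rw [Finset.mem_range] at he
          have h3 : ((u.coeff e : ℤ) : ℝ) = ((u.coeff e : ℚ) : ℝ) := by rw [Rat.cast_intCast]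
          rw [h3, huc]
          split_ifs
          · rw [Rat.cast_mul, Rat.cast_natCast, abs_mul, Nat.abs_cast]
            refine mul_le_mul (by exact_mod_cast hdC) ((abs_coeff_mul_le hC₀ (hbound j) W e).trans
              (mul_le_mul_of_nonneg_left (pow_le_pow_right₀ hC' (by omega)) (l1_nonneg _)))
              (abs_nonneg _) (by positivity)
          · rw [Rat.cast_zero, abs_zero]
            have := l1_nonneg W
            positivity
        · rw [card_range, nsmul_eq_mul, hB]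
          push_cast
          calc ((L : ℝ) + 1) * ((C₀ : ℝ) ^ (L + 1) * (l1 W * (C₀ : ℝ) ^ (L + 1)))
              ≤ ((L : ℝ) + 1) * ((C₀ : ℝ) ^ (L + 1) * ((Tn : ℝ) ^ (L + 1) * 2 ^ (L + 1) *
                  (((L : ℝ) + 1) ^ 2 * (C₀ : ℝ) ^ (2 * (L + 1))) * (C₀ : ℝ) ^ (L + 1))) := by
                gcongr
            _ = ((L : ℝ) + 1) ^ 3 * 2 ^ (L + 1) * (C₀ : ℝ) ^ (4 * (L + 1)) *
                  (Tn : ℝ) ^ (L + 1) := by ring
            _ ≤ ((2 : ℝ) ^ (L + 1)) ^ 3 * 2 ^ (L + 1) * (C₀ : ℝ) ^ (4 * (L + 1)) *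
                  (Tn : ℝ) ^ (L + 1) := by gcongr
            _ = _ := by
                rw [show (16 : ℝ) = 2 ^ 4 by norm_num, mul_pow, mul_pow, ← pow_mul, ← pow_mul,
                  ← pow_mul, ← pow_add]
                ring
      · ext e
        rw [coeff_C_mul, vIter_coeff hf hδT hδA hPd hPc htM, ← C_eq_natCast, coeff_C_mul,
          coeff_map, eq_intCast, huc, hWm, Polynomial.coe_mul, ← C_eq_natCast, Polynomial.coe_C,
          mul_assoc, PowerSeries.coeff_C_mul]
        split_ifs <;> ring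
    · exact ⟨0, fun h => absurd h ht⟩
  choose u hu using hu
  have hvI : ∀ t ≤ s + n, vIter T A 0 (u 0) t = fun i => (t ! : ℤ[X]) * u t i := fun t ht => by
    have h0 : (fun i => (u 0 i).map (Int.castRingHom ℚ)) = fun i => C (d : ℚ) * P i := by
      funext i
      have h1 := (hu 0 i (Nat.zero_le _)).2
      rw [Nat.factorial_zero, Nat.cast_one, one_mul] at h1
      exact h1.symm
    funext i
    refine map_injective _ hinj ?_
    have h1 := congrFun (vIter_map T A (Int.castRingHom ℚ) 0 (u 0) t) i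
    rw [h0, vIter_const_mul, ← hTQ, ← hAQ] at h1
    rw [h1]
    dsimp only
    rw [(hu t i ht).2, Polynomial.map_mul, Polynomial.map_natCast]
  obtain ⟨H, hH⟩ : ∃ H : Matrix (Fin n) (Fin n) ℤ[X],
      H = Matrix.of fun i (k : Fin n) => u (k : ℕ) i := ⟨_, rfl⟩
  have hdet : H.det ≠ 0 := by
    intro h0
    obtain ⟨v, hv, hvH⟩ := Matrix.exists_vecMul_eq_zero_iff.2 h0
    have hd : (C (d : ℚ) : ℚ[X]) ≠ 0 := C_ne_zero.2 (Nat.cast_ne_zero.2 hd0.ne')
    obtain ⟨η₀, hη₀⟩ : ∃ η₀ : Fin n → ℚ[X], η₀ = fun i => (v i).map (Int.castRingHom ℚ) :=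
      ⟨_, rfl⟩
    have horth : ∀ k < n, ∑ j, η₀ j * vIter TQ AQ 0 P k j = 0 := fun k hk => by
      refine (mul_eq_zero.1 (?_ : C (d : ℚ) * _ = 0)).resolve_left hd
      have h1 := congrArg (Polynomial.map (Int.castRingHom ℚ)) (congrFun hvH ⟨k, hk⟩)
      simp only [Matrix.vecMul, dotProduct, hH, Matrix.of_apply, Pi.zero_apply,
        Polynomial.map_zero, Polynomial.map_sum, Polynomial.map_mul] at h1
      rw [Finset.mul_sum, ← mul_zero (k ! : ℚ[X]), ← h1, Finset.mul_sum]
      refine Finset.sum_congr rfl fun j _ => ?_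
      rw [mul_left_comm, (hu k j (by omega)).2, hη₀]
      ring
    obtain ⟨c, hc0, hcd, hcP⟩ : ∃ c : Fin n → ℚ[X], c ≠ 0 ∧ (∀ j, (c j).natDegree ≤ γ) ∧
        ∑ j, c j * P j = 0 := by
      by_cases hP0 : P = 0
      · exact ⟨Pi.single ⟨0, hn⟩ 1, fun h => (one_ne_zero : (1 : ℚ[X]) ≠ 0)
          (by simpa using congrFun h ⟨0, hn⟩), fun j => by
            rcases eq_or_ne j ⟨0, hn⟩ with rfl | hj
            · simp
            · simp [hj], by simp [hP0]⟩
      · exact hγ η₀ P (fun h => hv (funext fun i => map_injective _ hinj (by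
          rw [Pi.zero_apply, Polynomial.map_zero]
          have h' := congrFun h i
          rw [hη₀] at h'
          exact h'))) hP0
          fun i hi => by simpa [vIter] using iterDeriv_dot_vIter horth i 0 (by omega)
    refine hc0 (hN₀ c hcd ?_)
    have hdvd : PowerSeries.X ^ (N + M + 1) ∣ (QQ : PowerSeries ℚ) * formSeries f c := by
      have e : (QQ : PowerSeries ℚ) * formSeries f c =
          ∑ j, (c j : PowerSeries ℚ) * ((QQ : PowerSeries ℚ) * f j - (P j : PowerSeries ℚ)) := by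
        simp only [mul_sub, Finset.sum_sub_distrib, ← Polynomial.coe_mul,
          ← FA.SiegelShidlovskii.coe_polynomial_sum, hcP, Polynomial.coe_zero, sub_zero,
          formSeries, Finset.mul_sum]
        exact Finset.sum_congr rfl fun j _ => by ring
      rw [e]
      refine Finset.dvd_sum fun j _ => Dvd.dvd.mul_left ?_ _
      rw [PowerSeries.X_pow_dvd_iff]
      intro e he
      rw [map_sub, coeff_coe, hPc j e (by omega), sub_self]
    have hQQ0 : QQ ≠ 0 := hQQ ▸ (Polynomial.map_ne_zero_iff hinj).2 hQ0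
    have h1 : ((N + M + 1 : ℕ) : ℕ∞) ≤ ((QQ : PowerSeries ℚ) * formSeries f c).order :=
      PowerSeries.nat_le_order _ _ (PowerSeries.X_pow_dvd_iff.1 hdvd)
    rw [PowerSeries.order_mul] at h1
    have h2 : (QQ : PowerSeries ℚ).order ≤ (N : ℕ∞) := le_trans (PowerSeries.order_le _ (by
      rw [coeff_coe]
      exact leadingCoeff_ne_zero.2 hQQ0)) (Nat.cast_le.2 (hQQ ▸ natDegree_map_le.trans hQd))
    rw [PowerSeries.X_pow_dvd_iff]
    intro i hi
    by_contra hne
    have h3 : ((N + M + 1 : ℕ) : ℕ∞) ≤ ((N + i : ℕ) : ℕ∞) := by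
      rw [Nat.cast_add]
      exact h1.trans (add_le_add h2 (PowerSeries.order_le _ hne))
    have := Nat.cast_le.1 h3
    omega
  refine ⟨H.det.content.natAbs, Int.natAbs_pos.2 (mt content_eq_zero_iff.1 hdet), ?_, ?_⟩
  · have h1 : (H.det.content.natAbs : ℝ) ≤ l1 H.det := by
      have h2 : H.det.content.natAbs ≤ H.det.leadingCoeff.natAbs := Nat.le_of_dvd
        (Int.natAbs_pos.2 (leadingCoeff_ne_zero.2 hdet))
        (Int.natAbs_dvd_natAbs.2 (content_dvd_coeff _))
      refine le_trans (Nat.cast_le.2 h2) ?_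
      rw [Nat.cast_natAbs, Int.cast_abs, l1]
      exact Finset.single_le_sum (f := fun i => |(H.det.coeff i : ℝ)|)
        (fun _ _ => abs_nonneg _) (Finset.mem_range.2 (Nat.lt_succ_self _))
    have h3 : (H.det.content.natAbs : ℝ) ≤ ((G ^ (L + 1) : ℕ) : ℝ) := by
      refine h1.trans ((l1_det_le H (B := B) fun i k => hH ▸ (hu k i (by omega)).1).trans ?_)
      rw [hB, hGdef, Nat.cast_pow, Nat.cast_mul _ ((16 * C₀ ^ 4 * Tn) ^ n), Nat.cast_pow, mul_pow,
        ← pow_mul, ← pow_mul, Nat.mul_comm (L + 1) n]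
      refine mul_le_mul_of_nonneg_right ?_ (by positivity)
      exact le_self_pow₀ (by exact_mod_cast Nat.factorial_pos n) (Nat.succ_ne_zero L)
    refine (Nat.cast_le.1 h3).trans ?_
    rw [← pow_mul]
    exact Nat.pow_le_pow_right hG1 hLE
  · intro t ht i j e
    have h1 : C ((t ! : ℤ)) ∣ H.det * solIter T A t i j := by
      have h2 : H.det * solIter T A t i j = ((solIter T A t * H) * H.adjugate) i j := by
        rw [Matrix.mul_assoc, Matrix.mul_adjugate, Matrix.mul_smul, Matrix.mul_one,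
          Matrix.smul_apply, smul_eq_mul]
      rw [h2, Matrix.mul_apply, map_natCast]
      refine Finset.dvd_sum fun k _ => Dvd.dvd.mul_right ?_ _
      have h3 : (solIter T A t * H) i k = (solIter T A t *ᵥ u (k : ℕ)) i := by
        rw [hH]
        rfl
      rw [h3]
      exact factorial_dvd_mulVec hT A u hvI (by omega) i
    have h4 := dvd_content_iff_C_dvd.2 h1
    rw [content_mul] at h4
    have h5 : (t ! : ℤ) ∣ H.det.content * (solIter T A t i j).coeff e :=
      h4.trans (mul_dvd_mul_left _ (content_dvd_coeff e))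
    rcases Int.natAbs_eq H.det.content with h6 | h6
    · rwa [h6] at h5
    · rw [h6, neg_mul, dvd_neg] at h5
      exact h5

end FA.GFunctions
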