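import Mathlib

/-!
# The iterates of a linear differential system and of its solutions

For `T y' = A y` the vectors `vIter T A k w t` are `T ^ (k + t)` times the iterates of
`d/dx - A / T` applied to `w / T ^ k`, the matrices `sysMat T A t` are those of the unit matrix, and
`solIter T A s` is `T ^ s` times the matrix of `y ↦ y⁽ˢ⁾` on solutions. The last is an alternating
sum of derivatives of the first, which are divisible by factorials over the integers.
-/

set_option autoImplicit false

noncomputable section

namespace FA.GFunctions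

open Polynomial Finset
open scoped Nat Matrix

variable {R : Type*} [CommRing R] {n : ℕ}

/-- `T ^ (m + i)` times the `i`-th derivative of `P / T ^ m`. -/
def eOp (T : R[X]) (m : ℕ) : ℕ → R[X] → R[X]
  | 0, P => P
  | i + 1, P => T * derivative (eOp T m i P) -
      ((m + i : ℕ) : R[X]) * derivative T * eOp T m i P

/-- One application of `d/dx - A / T` to a vector over `T ^ k`. -/
def vStep (T : R[X]) (A : Matrix (Fin n) (Fin n) R[X]) (k : ℕ) (w : Fin n → R[X]) :
    Fin n → R[X] :=
  fun i => T * derivative (w i) - (k : R[X]) * derivative T * w i - (A *ᵥ w) i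

/-- The iterates. -/
def vIter (T : R[X]) (A : Matrix (Fin n) (Fin n) R[X]) (k : ℕ) (w : Fin n → R[X]) :
    ℕ → Fin n → R[X]
  | 0 => w
  | t + 1 => vStep T A (k + t) (vIter T A k w t)

/-- The numerators of the derivatives of the solutions. -/
def solIter (T : R[X]) (A : Matrix (Fin n) (Fin n) R[X]) : ℕ → Matrix (Fin n) (Fin n) R[X]
  | 0 => 1
  | s + 1 => T • (solIter T A s).map derivative -
      ((s : R[X]) * derivative T) • solIter T A s + solIter T A s * A

/-- The numerators of the iterated connection. -/
def sysMat (T : R[X]) (A : Matrix (Fin n) (Fin n) R[X]) : ℕ → Matrix (Fin n) (Fin n) R[X]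
  | 0 => 1
  | i + 1 => T • (sysMat T A i).map derivative -
      ((i : R[X]) * derivative T) • sysMat T A i - A * sysMat T A i

variable (T : R[X]) (A : Matrix (Fin n) (Fin n) R[X])

theorem eOp_succ (m i : ℕ) (P : R[X]) : eOp T m (i + 1) P = T * derivative (eOp T m i P) -
    ((m + i : ℕ) : R[X]) * derivative T * eOp T m i P :=
  rfl

theorem vIter_succ_start (k : ℕ) (w : Fin n → R[X]) :
    ∀ t, vIter T A (k + 1) (vStep T A k w) t = vIter T A k w (t + 1)
  | 0 => by simp [vIter]
  | t + 1 => by
    rw [vIter, vIter_succ_start k w t, Nat.add_right_comm k 1 t, Nat.add_assoc]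
    rfl

theorem vIter_add (k : ℕ) (w : Fin n → R[X]) (a : ℕ) :
    ∀ b, vIter T A k w (a + b) = vIter T A (k + a) (vIter T A k w a) b
  | 0 => rfl
  | b + 1 => by
    rw [← Nat.add_assoc, vIter, vIter_add k w a b, Nat.add_assoc k a b |>.symm]
    rfl

theorem eOp_sum {ι : Type*} (m : ℕ) (s : Finset ι) (P : ι → R[X]) :
    ∀ i, eOp T m i (∑ x ∈ s, P x) = ∑ x ∈ s, eOp T m i (P x)
  | 0 => rfl
  | i + 1 => by
    simp only [eOp, eOp_sum m s P i, map_sum, Finset.mul_sum, Finset.sum_sub_distrib]

theorem eOp_const_mul (m : ℕ) (c : R[X]) (hc : derivative c = 0) (P : R[X]) :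
    ∀ i, eOp T m i (c * P) = c * eOp T m i P
  | 0 => rfl
  | i + 1 => by
    simp only [eOp, eOp_const_mul m c hc P i, derivative_mul, hc]
    ring

theorem mulVec_derivative (M : Matrix (Fin n) (Fin n) R[X]) (w : Fin n → R[X]) (i : Fin n) :
    derivative ((M *ᵥ w) i) =
      (M.map derivative *ᵥ w) i + (M *ᵥ fun j => derivative (w j)) i := by
  simp [Matrix.mulVec, dotProduct, derivative_mul, Finset.sum_add_distrib]

/-- **The derivatives of the solutions by the iterates.** -/
theorem solIter_mulVec : ∀ (s k : ℕ) (w : Fin n → R[X]) (i : Fin n),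
    (solIter T A s *ᵥ w) i = ∑ j ∈ range (s + 1), (s.choose j : R[X]) *
      (C ((-1 : R) ^ j) * eOp T (k + j) (s - j) (vIter T A k w j i))
  | 0, k, w, i => by simp [solIter, eOp, vIter]
  | s + 1, k, w, i => by
    obtain ⟨S, hS⟩ : ∃ S, S = solIter T A s := ⟨_, rfl⟩
    have h1 : (solIter T A (s + 1) *ᵥ w) i = (T * derivative ((S *ᵥ w) i) -
        ((k + s : ℕ) : R[X]) * derivative T * (S *ᵥ w) i) - (S *ᵥ vStep T A k w) i := by
      rw [mulVec_derivative, show vStep T A k w =
        T • (fun j => derivative (w j)) - ((k : R[X]) * derivative T) • w - A *ᵥ w from rfl]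
      simp only [solIter, ← hS, Matrix.add_mulVec, Matrix.sub_mulVec, Matrix.smul_mulVec,
        Matrix.mulVec_sub, Matrix.mulVec_smul, Pi.add_apply, Pi.sub_apply, Pi.smul_apply,
        smul_eq_mul, Matrix.mulVec_mulVec]
      push_cast
      ring
    rw [h1, hS, solIter_mulVec s k w i, solIter_mulVec s (k + 1) (vStep T A k w) i,
      Finset.sum_choose_succ_mul
        (fun a b => C ((-1 : R) ^ a) * eOp T (k + a) b (vIter T A k w a i)) s,
      sub_eq_add_neg, ← Finset.sum_neg_distrib]
    congr 1
    · rw [map_sum, Finset.mul_sum, Finset.mul_sum, ← Finset.sum_sub_distrib]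
      refine Finset.sum_congr rfl fun j hj => ?_
      rw [Finset.mem_range] at hj
      rw [show s + 1 - j = s - j + 1 by omega, eOp_succ,
        show k + j + (s - j) = k + s by omega, derivative_mul, derivative_mul, derivative_C,
        derivative_natCast]
      ring
    · refine Finset.sum_congr rfl fun j _ => ?_
      rw [vIter_succ_start, show k + (j + 1) = k + 1 + j by omega, pow_succ, map_mul, map_neg,
        map_one]
      ring

theorem mul_derivative_pow_self (a : ℕ) :
    T * derivative (T ^ a) = (a : R[X]) * derivative T * T ^ a := by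
  rcases a with _ | a
  · simp
  · rw [derivative_pow, map_natCast, Nat.add_sub_cancel, pow_succ]
    ring

/-- The rule of Leibniz. -/
theorem eOp_mul (m : ℕ) (P Q : R[X]) : ∀ i, eOp T m i (P * Q) =
    ∑ a ∈ range (i + 1), (i.choose a : R[X]) * (T ^ a * derivative^[a] P * eOp T m (i - a) Q)
  | 0 => by simp [eOp]
  | i + 1 => by
    rw [eOp_succ, eOp_mul m P Q i,
      Finset.sum_choose_succ_mul (fun a b => T ^ a * derivative^[a] P * eOp T m b Q) i,
      ← Finset.sum_add_distrib, map_sum, Finset.mul_sum, Finset.mul_sum, ← Finset.sum_sub_distrib]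
    refine Finset.sum_congr rfl fun a ha => ?_
    rw [Finset.mem_range] at ha
    obtain ⟨b, rfl⟩ : ∃ b, i = a + b := ⟨i - a, by omega⟩
    rw [show a + b + 1 - a = b + 1 by omega, Nat.add_sub_cancel_left, eOp_succ,
      Function.iterate_succ_apply', derivative_mul, derivative_mul, derivative_mul,
      derivative_natCast]
    have h := mul_derivative_pow_self T a
    push_cast
    linear_combination ((a + b).choose a : R[X]) * derivative^[a] P * eOp T m b Q * h

theorem eOp_succ_mul_self (m : ℕ) (P : R[X]) :
    ∀ i, eOp T (m + 1) i (T * P) = T * eOp T m i P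
  | 0 => rfl
  | i + 1 => by
    rw [eOp_succ, eOp_succ, eOp_succ_mul_self m P i, derivative_mul]
    push_cast
    ring

theorem eOp_zero_weight (P : R[X]) : ∀ i, eOp T 0 i P = T ^ i * derivative^[i] P
  | 0 => by simp [eOp]
  | i + 1 => by
    rw [eOp_succ, eOp_zero_weight P i, Function.iterate_succ_apply', derivative_mul, pow_succ]
    have h := mul_derivative_pow_self T i
    push_cast
    linear_combination derivative^[i] P * h

theorem eOp_of_cast_eq_zero {m : ℕ} (hm : (m : R[X]) = 0) (P : R[X]) :
    ∀ i, eOp T m i P = eOp T 0 i P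
  | 0 => rfl
  | i + 1 => by
    rw [eOp_succ, eOp_succ, eOp_of_cast_eq_zero hm P i]
    push_cast
    rw [hm]

theorem vIter_of_cast_eq_zero {k : ℕ} (hk : (k : R[X]) = 0) (w : Fin n → R[X]) :
    ∀ t, vIter T A k w t = vIter T A 0 w t
  | 0 => rfl
  | t + 1 => by
    funext i
    simp only [vIter, vIter_of_cast_eq_zero hk w t, vStep]
    push_cast
    rw [hk]

/-- The columns of the iterated connection. -/
theorem sysMat_mulVec (w : Fin n → R[X]) (hw : ∀ j, derivative (w j) = 0) :
    ∀ t, sysMat T A t *ᵥ w = vIter T A 0 w t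
  | 0 => Matrix.one_mulVec w
  | t + 1 => by
    funext i
    rw [vIter, ← sysMat_mulVec w hw t, vStep, mulVec_derivative, sysMat]
    have h0 : (sysMat T A t *ᵥ fun j => derivative (w j)) i = 0 := by
      simp [Matrix.mulVec, dotProduct, hw]
    simp only [Matrix.sub_mulVec, Matrix.smul_mulVec, Pi.sub_apply, Pi.smul_apply, smul_eq_mul,
      ← Matrix.mulVec_mulVec, h0, add_zero, Nat.zero_add]

variable {S : Type*} [CommRing S] (ψ : R →+* S)

theorem eOp_map (m : ℕ) (P : R[X]) :
    ∀ i, (eOp T m i P).map ψ = eOp (T.map ψ) m i (P.map ψ)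
  | 0 => rfl
  | i + 1 => by
    simp [eOp, ← eOp_map m P i, derivative_map]

theorem vIter_map (k : ℕ) (w : Fin n → R[X]) (t : ℕ) :
    (fun i => (vIter T A k w t i).map ψ) =
      vIter (T.map ψ) (A.map (Polynomial.map ψ)) k (fun i => (w i).map ψ) t := by
  induction t with
  | zero => rfl
  | succ t ih =>
    funext i
    simp only [vIter, vStep, ← ih, Matrix.mulVec, dotProduct, Matrix.map_apply,
      Polynomial.map_sub, Polynomial.map_mul, Polynomial.map_natCast, Polynomial.map_sum,
      derivative_map]

theorem solIter_map (s : ℕ) : (solIter T A s).map (Polynomial.map ψ) =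
    solIter (T.map ψ) (A.map (Polynomial.map ψ)) s := by
  induction s with
  | zero => exact Matrix.map_one _ (Polynomial.map_zero ψ) (Polynomial.map_one ψ)
  | succ s ih =>
    ext1 i j
    simp only [solIter, ← ih, Matrix.map_apply, Matrix.add_apply, Matrix.sub_apply,
      Matrix.smul_apply, smul_eq_mul, Matrix.mul_apply, Polynomial.map_add, Polynomial.map_sub,
      Polynomial.map_mul, Polynomial.map_natCast, Polynomial.map_sum, derivative_map]

theorem sysMat_map (s : ℕ) : (sysMat T A s).map (Polynomial.map ψ) =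
    sysMat (T.map ψ) (A.map (Polynomial.map ψ)) s := by
  induction s with
  | zero => exact Matrix.map_one _ (Polynomial.map_zero ψ) (Polynomial.map_one ψ)
  | succ s ih =>
    ext1 i j
    simp only [sysMat, ← ih, Matrix.map_apply, Matrix.sub_apply,
      Matrix.smul_apply, smul_eq_mul, Matrix.mul_apply, Polynomial.map_sub,
      Polynomial.map_mul, Polynomial.map_natCast, Polynomial.map_sum, derivative_map]

theorem vIter_natDegree_le (k : ℕ) (w : Fin n → R[X]) {δ b : ℕ} (hT : T.natDegree ≤ δ)
    (hA : ∀ i j, (A i j).natDegree ≤ δ) (hw : ∀ i, (w i).natDegree ≤ b) :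
    ∀ t i, (vIter T A k w t i).natDegree ≤ b + t * δ
  | 0, i => by simpa [vIter] using hw i
  | t + 1, i => by
    have ih := vIter_natDegree_le k w hT hA hw t
    rw [vIter, vStep, Nat.succ_mul]
    refine (natDegree_sub_le _ _).trans (max_le ((natDegree_sub_le _ _).trans (max_le ?_ ?_)) ?_)
    · refine natDegree_mul_le.trans ?_
      have := (natDegree_derivative_le (vIter T A k w t i)).trans (Nat.sub_le _ _)
      have := ih i
      omega
    · refine natDegree_mul_le.trans ?_
      have := (natDegree_derivative_le T).trans (Nat.sub_le _ _)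
      have := ih i
      have : (((k + t : ℕ) : R[X]) * derivative T).natDegree ≤ (derivative T).natDegree :=
        natDegree_mul_le.trans (by rw [natDegree_natCast, Nat.zero_add])
      omega
    · rw [Matrix.mulVec, dotProduct]
      refine natDegree_sum_le_of_forall_le _ _ fun j _ => natDegree_mul_le.trans ?_
      have := hA i j
      have := ih j
      omega

/-- **Integrality.** -/
theorem factorial_dvd_eOp {T : ℤ[X]} (hT : T ≠ 0) :
    ∀ (m i : ℕ) (P : ℤ[X]), (i ! : ℤ[X]) ∣ eOp T m i P
  | 0, i, P => by
    rw [eOp_zero_weight]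
    refine Dvd.dvd.mul_left ⟨hasseDeriv i P, ?_⟩ _
    rw [← factorial_smul_hasseDeriv]
    simp [nsmul_eq_mul]
  | m + 1, i, P => by
    induction i using Nat.strong_induction_on with
    | _ i ih =>
      have h := eOp_succ_mul_self T m P i
      rw [eOp_mul, Finset.sum_range_succ'] at h
      simp only [Nat.choose_zero_right, Nat.cast_one, one_mul, pow_zero,
        Function.iterate_zero_apply, Nat.sub_zero] at h
      have h' : eOp T (m + 1) i P = eOp T m i P - ∑ a ∈ range i, (i.choose (a + 1) : ℤ[X]) *
          (T ^ a * derivative^[a + 1] T * eOp T (m + 1) (i - (a + 1)) P) := by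
        refine mul_left_cancel₀ hT ?_
        rw [mul_sub, Finset.mul_sum, ← h]
        refine eq_sub_of_add_eq ?_
        rw [add_comm]
        refine congrArg (· + _) (Finset.sum_congr rfl fun a _ => ?_)
        rw [pow_succ]
        ring
      rw [h']
      refine dvd_sub (factorial_dvd_eOp hT m i P) (Finset.dvd_sum fun a ha => ?_)
      rw [Finset.mem_range] at ha
      obtain ⟨u, hu⟩ : ((a + 1)! : ℤ[X]) ∣ derivative^[a + 1] T :=
        ⟨hasseDeriv (a + 1) T, by rw [← factorial_smul_hasseDeriv]; simp [nsmul_eq_mul]⟩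
      obtain ⟨u', hu'⟩ := ih (i - (a + 1)) (by omega)
      refine ⟨T ^ a * u * u', ?_⟩
      rw [hu, hu', ← Nat.choose_mul_factorial_mul_factorial (show a + 1 ≤ i by omega)]
      push_cast
      ring

end FA.GFunctions
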