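import Fermat.Agent.GFunctions.Operators
import Fermat.Agent.SiegelShidlovskii.Norms

/-!
# G-functions and their Padé approximants of the second kind

Siegel's lemma gives a polynomial `Q` of degree at most `N` with `l1 Q` geometric in `N` such that
the coefficients of degree `N + 1, …, N + M` of all `Q f j` vanish. The iterates of the truncations
of `Q f j` are then the truncations of `T ^ t Q⁽ᵗ⁾ f j`.
-/

set_option autoImplicit false

noncomputable section

namespace FA.GFunctions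

open Polynomial Finset
open scoped Matrix
open FA.SiegelShidlovskii (l1 l1_nonneg l1_eq_sum l1_sum_le l1_mul_le IsSolution)

/-- A G-function with rational coefficients: the coefficients and the common denominators of the
first of them grow at most geometrically. -/
def IsGFunction (f : PowerSeries ℚ) : Prop :=
  ∃ C : ℕ, (∀ k, |PowerSeries.coeff k f| ≤ (C : ℚ) ^ (k + 1)) ∧
    ∀ N, ∃ d : ℕ, 0 < d ∧ d ≤ C ^ (N + 1) ∧
      ∀ k ≤ N, ∃ z : ℤ, (z : ℚ) = (d : ℚ) * PowerSeries.coeff k f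

variable {n : ℕ} {f : Fin n → PowerSeries ℚ}

/-- Common constants for finitely many G-functions. -/
theorem exists_gfunction_constant (hG : ∀ j, IsGFunction (f j)) :
    ∃ C : ℕ, 1 ≤ C ∧ (∀ j k, |PowerSeries.coeff k (f j)| ≤ (C : ℚ) ^ (k + 1)) ∧
      ∀ N, ∃ d : ℕ, 0 < d ∧ d ≤ C ^ (N + 1) ∧
        ∀ j, ∀ k ≤ N, ∃ z : ℤ, (z : ℚ) = (d : ℚ) * PowerSeries.coeff k (f j) := by
  choose C hC hd using hG
  choose d hd0 hdC hdz using hd
  have h1 : ∀ j, 1 ≤ C j := fun j => by
    by_contra h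
    have := hdC j 0
    rw [show C j = 0 by omega, Nat.zero_add, pow_one] at this
    have := hd0 j 0
    omega
  have hle : ∀ j, C j ≤ ∏ i, C i := fun j => Nat.le_of_dvd
    (Finset.prod_pos fun i _ => h1 i) (Finset.dvd_prod_of_mem _ (mem_univ j))
  refine ⟨∏ i, C i, (Finset.prod_pos fun i _ => h1 i : 0 < ∏ i, C i), fun j k => (hC j k).trans
    (pow_le_pow_left₀ (Nat.cast_nonneg _) (Nat.cast_le.2 (hle j)) _), fun N => ?_⟩
  refine ⟨∏ i, d i N, Finset.prod_pos fun i _ => hd0 i N, ?_, fun j k hk => ?_⟩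
  · rw [← Finset.prod_pow]
    exact Finset.prod_le_prod' fun i _ => hdC i N
  · obtain ⟨z, hz⟩ := hdz j N k hk
    refine ⟨(∏ i ∈ univ.erase j, (d i N : ℤ)) * z, ?_⟩
    rw [← Finset.mul_prod_erase univ (fun i => d i N) (mem_univ j)]
    push_cast
    rw [hz]
    ring

theorem coeff_polynomial_mul (W : ℚ[X]) (g : PowerSeries ℚ) (k : ℕ) :
    PowerSeries.coeff k ((W : PowerSeries ℚ) * g) =
      ∑ i ∈ range (k + 1), W.coeff i * PowerSeries.coeff (k - i) g := by
  rw [PowerSeries.coeff_mul, Finset.Nat.sum_antidiagonal_eq_sum_range_succ_mk]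
  simp

attribute [local instance] Matrix.seminormedAddCommGroup

/-- **Siegel's lemma**: the common denominator of the approximants. -/
theorem exists_pade {C : ℕ} (hC : 1 ≤ C)
    (hbound : ∀ j k, |PowerSeries.coeff k (f j)| ≤ (C : ℚ) ^ (k + 1))
    {L d : ℕ} (hdC : d ≤ C ^ (L + 1)) (hd0 : 0 < d)
    (hdz : ∀ j, ∀ k ≤ L, ∃ z : ℤ, (z : ℚ) = (d : ℚ) * PowerSeries.coeff k (f j))
    {N M : ℕ} (hn : 0 < n) (hM : 0 < M) (hNM : 2 * (n * M) ≤ N + 1) (hL : N + M ≤ L) :
    ∃ Q : ℤ[X], Q ≠ 0 ∧ Q.natDegree ≤ N ∧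
      l1 Q ≤ ((N : ℝ) + 1) ^ 2 * (C : ℝ) ^ (2 * (L + 1)) ∧
      ∀ j k, N < k → k ≤ N + M →
        PowerSeries.coeff k ((Q.map (Int.castRingHom ℚ) : PowerSeries ℚ) * f j) = 0 := by
  choose! z hz using hdz
  have hC' : (1 : ℝ) ≤ C := by exact_mod_cast hC
  obtain ⟨A, hA⟩ : ∃ A : Matrix (Fin n × Fin M) (Fin (N + 1)) ℤ,
      A = Matrix.of fun (x : Fin n × Fin M) (i : Fin (N + 1)) =>
        z x.1 (N + 1 + (x.2 : ℕ) - (i : ℕ)) := ⟨_, rfl⟩
  have hentry : ∀ x i, ‖A x i‖ ≤ (C : ℝ) ^ (2 * (L + 1)) := fun x i => by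
    obtain ⟨k, hk⟩ : ∃ k, k = N + 1 + (x.2 : ℕ) - (i : ℕ) := ⟨_, rfl⟩
    have hkL : k ≤ L := by have := x.2.2; omega
    rw [hA, Matrix.of_apply, ← hk, Int.norm_eq_abs]
    have h1 : ((z x.1 k : ℤ) : ℝ) = (d : ℝ) * ((PowerSeries.coeff k (f x.1) : ℚ) : ℝ) := by
      rw [← Rat.cast_intCast, hz x.1 k hkL]
      push_cast
      ring
    rw [h1, abs_mul, Nat.abs_cast, two_mul, pow_add]
    refine mul_le_mul (by exact_mod_cast hdC) ?_ (abs_nonneg _) (by positivity)
    have h2 := hbound x.1 k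
    rw [← Rat.cast_le (K := ℝ), Rat.cast_abs, Rat.cast_pow, Rat.cast_natCast] at h2
    exact h2.trans (pow_le_pow_right₀ hC' (by omega))
  obtain ⟨x, hx0, hxA, hxn⟩ := Int.Matrix.exists_ne_zero_int_vec_norm_le A
    (by simp only [Fintype.card_fin, Fintype.card_prod]; omega)
    (by simp only [Fintype.card_fin, Fintype.card_prod]; exact Nat.mul_pos hn hM)
  simp only [Fintype.card_fin, Fintype.card_prod] at hxn
  have hxi : ∀ i, |(x i : ℝ)| ≤ ((N : ℝ) + 1) * (C : ℝ) ^ (2 * (L + 1)) := fun i => by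
    rw [← Int.norm_eq_abs]
    refine (norm_le_pi_norm x i).trans (hxn.trans ?_)
    have hnorm : max 1 ‖A‖ ≤ (C : ℝ) ^ (2 * (L + 1)) :=
      max_le (one_le_pow₀ hC') ((Matrix.norm_le_iff (by positivity)).2 hentry)
    push_cast
    refine (Real.rpow_le_rpow_of_exponent_le (one_le_mul_of_one_le_of_one_le
      (le_add_of_nonneg_left (Nat.cast_nonneg N)) (le_max_left _ _)) ?_).trans
      ((Real.rpow_one _).trans_le (mul_le_mul_of_nonneg_left hnorm (by positivity)))
    have h1 : (2 : ℝ) * ((n : ℝ) * M) ≤ (N : ℝ) + 1 := by exact_mod_cast hNM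
    have h2 : (0 : ℝ) < (n : ℝ) * M := by exact_mod_cast Nat.mul_pos hn hM
    rw [div_le_one (by linarith)]
    linarith
  obtain ⟨Q, hQ⟩ : ∃ Q : ℤ[X], Q = ∑ i : Fin (N + 1), monomial (i : ℕ) (x i) := ⟨_, rfl⟩
  have hQc : ∀ i : Fin (N + 1), Q.coeff (i : ℕ) = x i := fun i => by
    rw [hQ, finsetSum_coeff, Finset.sum_eq_single i (fun b _ hb =>
      coeff_monomial_of_ne _ fun h => hb (Fin.ext h.symm))
      (fun h => absurd (mem_univ i) h), coeff_monomial_same]
  have hQd : Q.natDegree ≤ N := hQ ▸ natDegree_sum_le_of_forall_le _ _ fun i _ =>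
    (natDegree_monomial_le _).trans (Nat.le_of_lt_succ i.2)
  refine ⟨Q, fun h => hx0 (funext fun i => by rw [← hQc, h, coeff_zero]; rfl), hQd, ?_,
    fun j k hk hk' => ?_⟩
  · rw [l1_eq_sum _ (Nat.lt_succ_of_le hQd), Finset.sum_range, sq, mul_assoc]
    refine (Finset.sum_le_card_nsmul _ _ _ fun i _ => (hQc i).symm ▸ hxi i).trans_eq ?_
    simp [nsmul_eq_mul]
  · obtain ⟨t, rfl⟩ : ∃ t, k = N + 1 + t := ⟨k - (N + 1), by omega⟩
    rw [coeff_polynomial_mul, ← Finset.sum_subset (s₁ := range (N + 1)) (fun i hi => by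
      simp only [Finset.mem_range] at hi ⊢; omega) (fun i _ hi => by
      rw [Finset.mem_range] at hi
      rw [coeff_map, coeff_eq_zero_of_natDegree_lt (by omega), map_zero, zero_mul]),
      Finset.sum_range]
    refine (mul_eq_zero.1 (?_ : (d : ℚ) * _ = 0)).resolve_left (Nat.cast_ne_zero.2 hd0.ne')
    have h1 := congrArg (fun w : ℤ => (w : ℚ)) (congrFun hxA (j, ⟨t, by omega⟩))
    simp only [Matrix.mulVec, dotProduct, hA, Matrix.of_apply, Pi.zero_apply, Int.cast_zero] at h1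
    push_cast at h1
    rw [← h1, Finset.mul_sum]
    refine Finset.sum_congr rfl fun i _ => ?_
    rw [hz j (N + 1 + t - (i : ℕ)) (by omega), coeff_map, hQc, eq_intCast]
    ring

/-- The coefficients of the product with a G-function. -/
theorem abs_coeff_mul_le {g : PowerSeries ℚ} {C : ℕ} (hC : 1 ≤ C)
    (hg : ∀ k, |PowerSeries.coeff k g| ≤ (C : ℚ) ^ (k + 1)) (W : ℤ[X]) (e : ℕ) :
    |((PowerSeries.coeff e ((W.map (Int.castRingHom ℚ) : PowerSeries ℚ) * g) : ℚ) : ℝ)| ≤
      l1 W * (C : ℝ) ^ (e + 1) := by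
  have hC' : (1 : ℝ) ≤ C := by exact_mod_cast hC
  rw [coeff_polynomial_mul, Rat.cast_sum,
    l1_eq_sum W (show W.natDegree < W.natDegree + e + 1 by omega), Finset.sum_mul]
  refine (Finset.abs_sum_le_sum_abs _ _).trans ((Finset.sum_le_sum fun i hi => ?_).trans
    (Finset.sum_le_sum_of_subset_of_nonneg (fun i hi => by
      simp only [Finset.mem_range] at hi ⊢; omega) fun i _ _ => by positivity))
  rw [coeff_map, eq_intCast, Rat.cast_mul, Rat.cast_intCast, abs_mul]
  refine mul_le_mul_of_nonneg_left ?_ (abs_nonneg _)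
  have h2 := hg (e - i)
  rw [← Rat.cast_le (K := ℝ), Rat.cast_abs, Rat.cast_pow, Rat.cast_natCast] at h2
  exact h2.trans (pow_le_pow_right₀ hC' (by omega))

theorem l1_one : l1 (1 : ℤ[X]) = 1 := by simp [l1]

theorem l1_pow_le (P : ℤ[X]) : ∀ k : ℕ, l1 (P ^ k) ≤ l1 P ^ k
  | 0 => by rw [pow_zero, pow_zero, l1_one]
  | k + 1 => by
    rw [pow_succ, pow_succ]
    exact (l1_mul_le _ _).trans (mul_le_mul_of_nonneg_right (l1_pow_le P k) (l1_nonneg _))

theorem l1_prod_le {ι : Type*} (s : Finset ι) (P : ι → ℤ[X]) :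
    l1 (∏ i ∈ s, P i) ≤ ∏ i ∈ s, l1 (P i) := by
  classical
  induction s using Finset.induction_on with
  | empty => simp [l1_one]
  | insert a s ha ih =>
    rw [Finset.prod_insert ha, Finset.prod_insert ha]
    exact (l1_mul_le _ _).trans (mul_le_mul_of_nonneg_left ih (l1_nonneg _))

theorem natDegree_hasseDeriv_le' (P : ℤ[X]) (t : ℕ) :
    (hasseDeriv t P).natDegree ≤ P.natDegree :=
  natDegree_le_iff_coeff_eq_zero.2 fun e he => by
    rw [hasseDeriv_coeff, coeff_eq_zero_of_natDegree_lt (by omega), mul_zero]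

theorem l1_hasseDeriv_le (P : ℤ[X]) (t : ℕ) :
    l1 (hasseDeriv t P) ≤ 2 ^ P.natDegree * l1 P := by
  rw [l1_eq_sum (hasseDeriv t P) (show _ < P.natDegree + 1 from
    Nat.lt_succ_of_le (natDegree_hasseDeriv_le' P t)),
    l1_eq_sum P (show P.natDegree < t + (P.natDegree + 1) by omega), Finset.mul_sum,
    Finset.sum_range_add _ t (P.natDegree + 1)]
  refine le_trans (Finset.sum_le_sum fun e _ => ?_)
    (le_add_of_nonneg_left (Finset.sum_nonneg fun _ _ => by positivity))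
  rw [hasseDeriv_coeff, Int.cast_mul, Int.cast_natCast, abs_mul, Nat.abs_cast, Nat.add_comm t e]
  rcases eq_or_ne (P.coeff (e + t)) 0 with h | h
  · simp [h]
  · refine mul_le_mul_of_nonneg_right ?_ (abs_nonneg _)
    exact_mod_cast (Nat.choose_le_two_pow _ _).trans
      (Nat.pow_le_pow_right two_pos (le_natDegree_of_ne_zero h))

theorem l1_det_le {o : ℕ} (M : Matrix (Fin o) (Fin o) ℤ[X]) {B : ℝ}
    (hM : ∀ i j, l1 (M i j) ≤ B) : l1 M.det ≤ (o.factorial : ℝ) * B ^ o := by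
  rw [Matrix.det_apply]
  refine (l1_sum_le _ _).trans ((Finset.sum_le_card_nsmul _ _ (B ^ o) fun σ _ => ?_).trans ?_)
  · have h1 : l1 (Equiv.Perm.sign σ • ∏ i, M (σ i) i) = l1 (∏ i, M (σ i) i) := by
      rcases Int.units_eq_one_or (Equiv.Perm.sign σ) with h | h <;> simp [h, l1]
    rw [h1]
    refine (l1_prod_le _ _).trans ((Finset.prod_le_prod (fun i _ => l1_nonneg _)
      fun i _ => hM _ _).trans_eq ?_)
    simp
  · rw [card_univ, Fintype.card_perm, Fintype.card_fin, nsmul_eq_mul]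

variable {T : ℚ[X]} {A : Matrix (Fin n) (Fin n) ℚ[X]}

/-- **The iterates of the truncations.** -/
theorem vIter_coeff (hf : IsSolution T A f) {δ N M : ℕ} (hT : T.natDegree ≤ δ)
    (hA : ∀ i j, (A i j).natDegree ≤ δ) {Q : ℚ[X]} {P : Fin n → ℚ[X]}
    (hP : ∀ j, (P j).natDegree ≤ N)
    (hPc : ∀ j e, e ≤ N + M → (P j).coeff e = PowerSeries.coeff e ((Q : PowerSeries ℚ) * f j))
    {t : ℕ} (ht : t * (δ + 1) ≤ M) (j : Fin n) (e : ℕ) :
    (vIter T A 0 P t j).coeff e = if e ≤ N + t * δ then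
      PowerSeries.coeff e (((T ^ t * derivative^[t] Q : ℚ[X]) : PowerSeries ℚ) * f j) else 0 := by
  have key : ∀ t, ∀ j, PowerSeries.X ^ (N + M + 1 - t) ∣
      (vIter T A 0 P t j : PowerSeries ℚ) - (eOp T 0 t Q : PowerSeries ℚ) * f j := by
    intro t
    induction t with
    | zero =>
      intro j
      rw [PowerSeries.X_pow_dvd_iff]
      intro e he
      rw [map_sub, coeff_coe, vIter, eOp, hPc j e (by omega), sub_self]
    | succ t ih =>
      intro j
      obtain ⟨E, hE⟩ : ∃ E : Fin n → PowerSeries ℚ,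
          E = fun i => (vIter T A 0 P t i : PowerSeries ℚ) - (eOp T 0 t Q : PowerSeries ℚ) * f i :=
        ⟨_, rfl⟩
      have hE' : ∀ i, PowerSeries.X ^ (N + M + 1 - t) ∣ E i := fun i => hE ▸ ih i
      have heq : (vIter T A 0 P (t + 1) j : PowerSeries ℚ) -
          (eOp T 0 (t + 1) Q : PowerSeries ℚ) * f j =
          (T : PowerSeries ℚ) * PowerSeries.derivative ℚ (E j) -
            ((t : ℚ[X]) : PowerSeries ℚ) * (derivative T : PowerSeries ℚ) * E j -
            ∑ l, (A j l : PowerSeries ℚ) * E l := by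
        simp only [hE, vIter, vStep, eOp, Matrix.mulVec, dotProduct, map_sub, Nat.zero_add,
          Derivation.leibniz, smul_eq_mul, PowerSeries.derivative_coe, Polynomial.coe_sub,
          Polynomial.coe_mul, FA.SiegelShidlovskii.coe_polynomial_sum, mul_sub,
          Finset.sum_sub_distrib]
        have h2 : ∑ l, (A j l : PowerSeries ℚ) * ((eOp T 0 t Q : PowerSeries ℚ) * f l) =
            (eOp T 0 t Q : PowerSeries ℚ) * ∑ l, (A j l : PowerSeries ℚ) * f l := by
          rw [Finset.mul_sum]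
          exact Finset.sum_congr rfl fun l _ => by ring
        rw [h2, ← hf j]
        ring
      rw [heq]
      have hd := (FA.SiegelShidlovskii.X_pow_dvd_derivative (hE' j))
      rw [Nat.sub_sub] at hd
      refine dvd_sub (dvd_sub (hd.mul_left _) ?_) (Finset.dvd_sum fun l _ => ?_)
      · exact ((pow_dvd_pow _ (by omega)).trans (hE' j)).mul_left _
      · exact ((pow_dvd_pow _ (by omega)).trans (hE' l)).mul_left _
  split_ifs with he
  · have h1 := PowerSeries.X_pow_dvd_iff.1 (key t j) e (by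
      rw [Nat.mul_add, Nat.mul_one] at ht
      omega)
    rw [map_sub, coeff_coe, eOp_zero_weight, sub_eq_zero] at h1
    exact h1
  · refine coeff_eq_zero_of_natDegree_lt (lt_of_le_of_lt
      (vIter_natDegree_le T A 0 P hT hA hP t j) (by omega))

end FA.GFunctions
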